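import Fermat.Agent.BAD.AtP.Geo.Base
import Fermat.Agent.BAD.Toric.Content

/-!
# Residual series at the points of the place

The residual series of a function of level `q M` at a point with integral values, and the ideal
of such a point over a coefficient ring.
-/

set_option autoImplicit false

open UpperHalfPlane CongruenceSubgroup IsLocalRing
open scoped MatrixGroups

noncomputable section

namespace FermatAgent.BAD.AtP

open FermatAgent.ES (BRing lexp zetaC AuxLevel CPlace GoodRoot GoodPoint discHom orbPt)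

variable {q M : ℕ} [hqp : Fact q.Prime] [NeZero M] {P : CPlace q} (haux : AuxLevel M 2)
  (hP : P.HasCDVRs) (hM : M.Coprime q)

include hM in
theorem serLT_of_raiseL_mem {O : Subring ℂ} {hO : O ≤ P.ring} {x : BRing M O}
    (h : (raiseL M x : LRing q M O) ∈ pInf hO) (γ : SL(2, ℤ)) :
    P.SerLT (lexp M γ (x : ℍ → ℂ)) := by
  obtain ⟨γ', hγ', hmod⟩ := TwoP.exists_gamma0_modMat (q := q) hM γ
  intro n
  have h1 := h γ' hγ' (q * n)
  rw [serAt_raiseL, expandL_coeff_mul, TwoP.lexp_of_modMat x.2.1 hmod] at h1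
  exact h1

include hP in
/-- Functions of level `M` small at every cusp vanish in the residual discs. -/
theorem psResP_eq_zero {τ : ℍ} (hg : GoodPoint haux P.ring τ) {d : BRing M P.ring}
    (hd : ∀ γ, P.SerLT (lexp M γ (d : ℍ → ℂ))) :
    (discHom haux τ (P.goodRoot hM) hg d).map P.res = 0 := by
  classical
  obtain ⟨S, hS, hSO⟩ := ES.exists_finset_mem_BRing haux (P.goodRoot hM) d.2
  obtain ⟨O, hO', hA, -, hsub⟩ := Toric.exists_coeffRing (M := M) hM hP
    (S := ↑S ∪ ES.fibVals haux τ) (S.finite_toSet.union (ES.finite_fibVals haux τ))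
    (Set.union_subset hS (ES.fibVals_subset haux hg))
  have := hO'.dvr
  have hgO : GoodPoint haux O τ :=
    ES.goodPoint_of_isCDVR haux hO' hg fun x hx => hsub (Or.inr hx)
  set d' : BRing M O := ⟨_, hSO O hA fun x hx => hsub (Or.inl hx)⟩
  have h1 := Toric.psRes_disc_eq_zero haux hA hO' hM hgO (d := d') (q := q) (by
    intro γ hγ n
    rw [serAt_raiseL]
    by_cases hn : (q : ℤ) ∣ n
    · obtain ⟨i, rfl⟩ := hn
      rw [expandL_coeff_mul]
      exact hd γ i
    · rw [expandL_coeff_of_not_dvd q _ hn, map_zero]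
      exact one_pos)
  rw [show d = ⟨(d' : ℍ → ℂ), d'.2.1, fun γ n => hO'.le (d'.2.2 γ n)⟩ from rfl,
    ES.discHom_mono haux τ hA hgO (P.goodRoot hM) hg hO'.le d']
  ext i
  have h2 := congrArg (PowerSeries.coeff i) h1
  rw [PowerSeries.coeff_map, map_zero, residue_eq_zero_iff, hO'.mem_maximalIdeal_iff] at h2
  rw [PowerSeries.coeff_map, PowerSeries.coeff_map, map_zero]
  exact P.res_eq_zero_iff.mpr h2

include hP in
theorem psResP_congr {τ : ℍ} (hg : GoodPoint haux P.ring τ) {x y : BRing M P.ring}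
    (h : (raiseL M x - raiseL M y : LRing q M P.ring) ∈ pInf le_rfl) :
    (discHom haux τ (P.goodRoot hM) hg x).map P.res =
      (discHom haux τ (P.goodRoot hM) hg y).map P.res := by
  have h1 := psResP_eq_zero haux hP hM hg (d := x - y)
    (serLT_of_raiseL_mem (hO := le_rfl) hM (by rwa [map_sub]))
  rwa [map_sub, map_sub, sub_eq_zero] at h1

/-- The residual series at a point of the place. -/
def pointP {τ : ℍ} (hg : GoodPoint haux P.ring τ) :
    LRing q M P.ring →+* PowerSeries (ResidueField P.ring) :=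
  RingHom.mk' {
    toFun := fun f => (discHom haux τ (P.goodRoot hM) hg (trB f)).map P.res
    map_one' := by
      rw [← map_one (PowerSeries.map P.res), ← map_one (discHom haux τ (P.goodRoot hM) hg)]
      refine psResP_congr haux hP hM hg ?_
      rw [map_one]
      simpa using neg_mem (TwoP.sub_trB_mem_pInf hM le_rfl (1 : LRing q M P.ring))
    map_mul' := fun f g => by
      rw [← map_mul, ← map_mul]
      refine psResP_congr haux hP hM hg ?_
      have h1 := sub_mem (add_mem (Ideal.mul_mem_right g _ (TwoP.sub_trB_mem_pInf hM le_rfl f))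
        (Ideal.mul_mem_left _ (raiseL M (trB f)) (TwoP.sub_trB_mem_pInf hM le_rfl g)))
        (TwoP.sub_trB_mem_pInf hM le_rfl (f * g))
      convert h1 using 1
      rw [map_mul]; ring } fun f g => by
      show PowerSeries.map P.res _ = PowerSeries.map P.res _ + PowerSeries.map P.res _
      rw [← map_add, ← map_add]
      refine psResP_congr haux hP hM hg ?_
      have h1 := sub_mem (add_mem (TwoP.sub_trB_mem_pInf hM le_rfl f)
        (TwoP.sub_trB_mem_pInf hM le_rfl g)) (TwoP.sub_trB_mem_pInf hM le_rfl (f + g))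
      convert h1 using 1
      rw [map_add]; ring

variable {τ : ℍ} (hg : GoodPoint haux P.ring τ)

theorem pointP_apply (f : LRing q M P.ring) :
    pointP haux hP hM hg f = (discHom haux τ (P.goodRoot hM) hg (trB f)).map P.res := rfl

/-- The residual series of a function of level `M` at a point of the place. -/
theorem pointP_raiseL (x : BRing M P.ring) :
    pointP (q := q) haux hP hM hg (raiseL M x) =
      (discHom haux τ (P.goodRoot hM) hg x).map P.res :=
  psResP_congr haux hP hM hg (by
    rw [← neg_sub]; exact neg_mem (TwoP.sub_trB_mem_pInf hM le_rfl _))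

/-- The residual series at a point kills the functions small on the component at `∞`. -/
theorem pointP_eq_zero {f : LRing q M P.ring} (hf : f ∈ pInf le_rfl) :
    pointP haux hP hM hg f = 0 := by
  rw [pointP_apply]
  refine psResP_eq_zero haux hP hM hg (serLT_of_raiseL_mem (hO := le_rfl) hM ?_)
  have h1 := sub_mem hf (TwoP.sub_trB_mem_pInf hM le_rfl f)
  rwa [sub_sub_cancel] at h1

/-- The residual series of a constant is its residue. -/
theorem pointP_constL (c : P.ring) :
    pointP (q := q) (M := M) haux hP hM hg (constL c) = PowerSeries.C (P.res c) := by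
  rw [show (constL c : LRing q M P.ring) = raiseL M ⟨_, ES.const_mem_BRing c.2⟩ from rfl,
    pointP_raiseL, ES.discHom_const haux τ (P.goodRoot hM) hg c.2, PowerSeries.map_C]

section Ring

variable {O : Subring ℂ} (hA : GoodRoot M O (zetaC M)) (hO' : P.IsCDVR O)

/-- The residual series at a point of the place, on functions over a coefficient ring. -/
def pointO : LRing q M O →+* PowerSeries (ResidueField P.ring) :=
  (pointP haux hP hM hg).comp (inclL hO'.le)

theorem pointO_raiseL (x : BRing M O) :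
    pointO (q := q) haux hP hM hg hO' (raiseL M x) =
      (discHom haux τ (P.goodRoot hM) hg
        ⟨(x : ℍ → ℂ), x.2.1, fun γ n => hO'.le (x.2.2 γ n)⟩).map P.res :=
  pointP_raiseL haux hP hM hg ⟨(x : ℍ → ℂ), x.2.1, fun γ n => hO'.le (x.2.2 γ n)⟩

theorem pointO_eq_zero {f : LRing q M O} (hf : f ∈ pInf hO'.le) :
    pointO haux hP hM hg hO' f = 0 :=
  pointP_eq_zero haux hP hM hg fun γ hγ => hf γ hγ

theorem pointO_tRing :
    pointO (q := q) haux hP hM hg hO' (raiseL M (tRing haux hA)) =
      PowerSeries.C (P.res ⟨_, hg.val.mem⟩) + PowerSeries.X := by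
  have e : (⟨_, (tRing haux hA).2.1, fun γ n => hO'.le ((tRing haux hA).2.2 γ n)⟩ :
      BRing M P.ring) =
      ⟨_, ES.polRing_le_BRing haux (P.goodRoot hM) (ES.haupt_mem_polRing haux P.ring)⟩ :=
    Subtype.ext rfl
  rw [pointO_raiseL, e, ES.discHom_haupt, map_add, PowerSeries.map_X, PowerSeries.map_C]

theorem pointO_const {c : ℂ} (hc : c ∈ O) :
    pointO (q := q) haux hP hM hg hO' (raiseL M ⟨fun _ => c, ES.const_mem_BRing hc⟩) =
      PowerSeries.C (P.res ⟨c, hO'.le hc⟩) :=
  pointP_constL haux hP hM hg ⟨c, hO'.le hc⟩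

theorem pointO_tPar {τ1 : ℍ} (hg1 : GoodPoint haux O τ1)
    (hres : P.res ⟨_, hO'.le hg1.val.mem⟩ = P.res ⟨_, hg.val.mem⟩) :
    pointO (q := q) haux hP hM hg hO' (raiseL M (tPar haux hA hg1)) = PowerSeries.X := by
  rw [tPar, map_sub, map_sub, pointO_tRing, pointO_const haux hP hM hg hO' hg1.val.mem, hres,
    add_sub_cancel_left]

variable [IsDiscreteValuationRing O]

omit [IsDiscreteValuationRing ↥O] in
theorem OrdAt.order_eq_gen {k : Type} [Field k] {hO : O ≤ P.ring}
    {hA : GoodRoot M O (zetaC M)} {𝔪 : Ideal (LRing q M O)} {τ1 : ℍ}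
    {hg1 : GoodPoint haux O τ1} {β : LRing q M O →+* PowerSeries k}
    (hinf : ∀ f ∈ pInf hO, β f = 0) (hu : ∀ f ∉ 𝔪, IsUnit (β f))
    (ht : β (raiseL M (tPar haux hA hg1)) = PowerSeries.X)
    {f : LRing q M O} {i : ℕ} (h : OrdAt haux hA hO 𝔪 hg1 f i) :
    β f ≠ 0 ∧ (β f).order = (i : ℕ∞) := by
  obtain ⟨e, u, he, hu', hrel⟩ := h
  have h1 := hinf _ hrel
  simp only [map_sub, map_mul, map_pow, ht, sub_eq_zero] at h1
  have hord := congrArg PowerSeries.order h1
  rw [PowerSeries.order_mul, PowerSeries.order_mul, PowerSeries.order_zero_of_unit (hu _ he),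
    PowerSeries.order_X_pow, PowerSeries.order_zero_of_unit (hu _ hu'), zero_add, add_zero]
    at hord
  refine ⟨fun h0 => ?_, hord⟩
  rw [h0, PowerSeries.order_zero] at hord
  exact ENat.top_ne_natCast _ hord

/-- **The ideal of a point of the place over a coefficient ring.** -/
theorem exists_pointO_ideal {τ1 : ℍ} (hg1 : GoodPoint haux O τ1)
    (hres : P.res ⟨_, hO'.le hg1.val.mem⟩ = P.res ⟨_, hg.val.mem⟩) :
    ∃ 𝔪 : Ideal (LRing q M O), 𝔪.IsMaximal ∧ pInf hO'.le ≤ 𝔪 ∧
      raiseL M (tPar haux hA hg1) ∈ 𝔪 ∧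
      ∀ (f : LRing q M O) (i : ℕ), OrdAt haux hA hO'.le 𝔪 hg1 f i →
        pointO haux hP hM hg hO' f ≠ 0 ∧
          (pointO haux hP hM hg hO' f).order = (i : ℕ∞) := by
  set ψ : BRing M O →+* ResidueField P.ring :=
    PowerSeries.constantCoeff.comp ((pointO (q := q) haux hP hM hg hO').comp (raiseL M))
  have hψc : ∀ (c : ℂ) (hc : c ∈ O),
      ψ ⟨fun _ => c, ES.const_mem_BRing hc⟩ = P.res ⟨c, hO'.le hc⟩ := fun c hc => by
    show PowerSeries.constantCoeff (pointP haux hP hM hg (constL ⟨c, hO'.le hc⟩)) = _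
    rw [pointP_constL, PowerSeries.constantCoeff_C]
  obtain ⟨g, hgψ⟩ := ES.exists_point_of_hom haux hA hg1 ψ (by
    rw [hψc _ hg1.val.mem]
    show PowerSeries.constantCoeff
      (pointO (q := q) haux hP hM hg hO' (raiseL M (tRing haux hA))) = _
    rw [pointO_tRing, map_add, PowerSeries.constantCoeff_C, PowerSeries.constantCoeff_X, add_zero]
    exact hres.symm)
  have hg2 := goodPoint_orbPt haux hA hg1 g
  obtain ⟨𝔪, h𝔪, hinf, ht, hiff⟩ := exists_point_ideal (q := q) haux hA hO' hM hg2
  have e : tPar haux hA hg2 = tPar haux hA hg1 := Subtype.ext (by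
    rw [coe_tPar, coe_tPar, ES.haupt_orbPt haux])
  refine ⟨𝔪, h𝔪, hinf, e ▸ ht, fun f i hi => hi.order_eq_gen haux
    (β := pointO haux hP hM hg hO') (fun f hf => pointO_eq_zero haux hP hM hg hO' hf)
    (fun f hf => ?_) (pointO_tPar haux hP hM hg hA hO' hg1 hres)⟩
  have hu := (hiff f).mp hf
  rw [PowerSeries.isUnit_iff_constantCoeff] at hu ⊢
  refine isUnit_iff_ne_zero.mpr fun h0 => hu.ne_zero ?_
  have hv : (pointO haux hP hM hg hO' f) = pointO haux hP hM hg hO' (raiseL M (trB f)) :=
    sub_eq_zero.mp (by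
      rw [← map_sub]
      exact pointO_eq_zero haux hP hM hg hO' (TwoP.sub_trB_mem_pInf hM hO'.le f))
  rw [hv] at h0
  change ψ (trB f) = 0 at h0
  rw [hgψ, hψc _ ((ES.exists_fibre_decomp haux hA hg1 (trB f).2).1 g), P.res_eq_zero_iff] at h0
  show PowerSeries.constantCoeff (psRes (discHom haux _ hA hg2 (trB f))) = 0
  rw [← PowerSeries.coeff_zero_eq_constantCoeff_apply, PowerSeries.coeff_map,
    PowerSeries.coeff_zero_eq_constantCoeff_apply, residue_eq_zero_iff,
    hO'.mem_maximalIdeal_iff, ES.constantCoeff_discHom]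
  exact h0

end Ring

end FermatAgent.BAD.AtP
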