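import Fermat.Agent.BAD.AtP.Geo.Count
import Fermat.Agent.BAD.AtP.Geo.PointP
import Fermat.Agent.BAD.Diamond.Normal

/-!
# Orders on the component at `∞` over a coefficient ring

At a point on one component only the order of a function with divisible zeros is divisible by
`q`; at two crossing points the orders of a normalised Kummer element are congruent modulo `q`.
-/

set_option autoImplicit false

open UpperHalfPlane CongruenceSubgroup IsLocalRing
open scoped MatrixGroups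

noncomputable section

namespace FermatAgent.BAD.AtP

open FermatAgent.BAD.TwoP
open FermatAgent.ES (BRing act zetaC AuxLevel CPlace GoodRoot GoodPoint)

variable {q M : ℕ} [hqp : Fact q.Prime] [NeZero M] {O : Subring ℂ} (haux : AuxLevel M 2)
  (hA : GoodRoot M O (zetaC M)) {P : CPlace q} (hO : O ≤ P.ring) (hO' : P.IsCDVR O)
  (hM : M.Coprime q) (hζ : zetaC (q * M) ∈ O) (hq2 : q ≠ 2) (T : TauData q M P O)
  [IsDiscreteValuationRing O]

section Calc

variable {𝔪 : Ideal (LRing q M O)} [h𝔪 : 𝔪.IsMaximal] {τ1 : ℍ} {hg : GoodPoint haux O τ1}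
  {f f' : LRing q M O} {i i' : ℕ}

omit [IsDiscreteValuationRing ↥O]

omit h𝔪 in
/-- Functions congruent on the component at `∞` have the same order at a point. -/
theorem OrdAt.congr (h : OrdAt haux hA hO 𝔪 hg f i) (hf : f' - f ∈ pInf hO) :
    OrdAt haux hA hO 𝔪 hg f' i := by
  obtain ⟨e, u, he, hu, hrel⟩ := h
  refine ⟨e, u, he, hu, ?_⟩
  have h1 := add_mem hrel (Ideal.mul_mem_left _ (raiseL M e) hf)
  convert h1 using 1
  ring

/-- The order at a point is additive. -/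
theorem OrdAt.mul (h : OrdAt haux hA hO 𝔪 hg f i) (h' : OrdAt haux hA hO 𝔪 hg f' i') :
    OrdAt haux hA hO 𝔪 hg (f * f') (i + i') := by
  obtain ⟨e, u, he, hu, hrel⟩ := h
  obtain ⟨e', u', he', hu', hrel'⟩ := h'
  refine ⟨e * e', u * u', ?_, ?_, ?_⟩
  · rw [map_mul]; exact fun h => (h𝔪.isPrime.mem_or_mem h).elim he he'
  · rw [map_mul]; exact fun h => (h𝔪.isPrime.mem_or_mem h).elim hu hu'
  · have h1 := add_mem (Ideal.mul_mem_left _ (raiseL M e' * f') hrel)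
      (Ideal.mul_mem_left _ (raiseL M (tPar haux hA hg ^ i * u)) hrel')
    convert h1 using 1
    simp only [map_mul, map_pow, pow_add]
    ring

/-- The constant `1` has order zero at a point. -/
theorem OrdAt.one : OrdAt haux hA hO 𝔪 hg 1 0 :=
  ⟨1, 1, by rw [map_one]; exact fun h => h𝔪.ne_top ((Ideal.eq_top_iff_one _).mpr h),
    by rw [map_one]; exact fun h => h𝔪.ne_top ((Ideal.eq_top_iff_one _).mpr h), by simp⟩

/-- The order of an `n`-th power is `n` times the order. -/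
theorem OrdAt.pow (h : OrdAt haux hA hO 𝔪 hg f i) :
    ∀ n : ℕ, OrdAt haux hA hO 𝔪 hg (f ^ n) (n * i)
  | 0 => by rw [pow_zero, Nat.zero_mul]; exact OrdAt.one haux hA hO
  | n + 1 => by
    rw [pow_succ, Nat.add_mul, Nat.one_mul]
    exact (OrdAt.pow h n).mul haux hA hO h

end Calc

omit [IsDiscreteValuationRing ↥O] in
include hM hζ in
/-- The transform with unit coefficients on both components has them as well. -/
theorem unit_symm {y : LRing q M O} (hA : GoodRoot M O (zetaC M)) (haux : AuxLevel M 2)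
    (hO' : P.IsCDVR O) (hq2 : q ≠ 2) (hy : UnitInf P y) (hy' : UnitZero P y) :
    UnitInf P ((atkinEquiv hM hζ).symm y) ∧ UnitZero P ((atkinEquiv hM hζ).symm y) := by
  set f := (atkinEquiv hM hζ).symm y
  have e : atkinEquiv hM hζ f = y := (atkinEquiv hM hζ).apply_symm_apply y
  refine ⟨(mem_pInf_or_unitInf haux hA hO'.le hM hζ hq2 f).resolve_left fun h => ?_, ?_⟩
  · obtain ⟨γ, hγ⟩ : ∃ γ : SL(2, ℤ), γ ∉ Gamma0 q := ⟨ModularGroup.S, fun h => by
      have h1 := mem_Gamma0_dvd.mp h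
      simp [ModularGroup.S] at h1
      exact hqp.out.one_lt.ne' (Nat.dvd_one.mp (by exact_mod_cast h1))⟩
    have h1 := atkinL_mem_pZero hO'.le hM hζ h
    rw [show atkinL hM hζ f = y from e] at h1
    exact (h1 γ hγ).not_unitCoeff (hy' γ hγ)
  · refine (BAD.mem_pZero_or_unitZero haux hA hO' hM hζ hq2 f).resolve_left fun h => ?_
    have h1 := atkinL_mem_pInf hO'.le hM hζ h
    rw [show atkinL hM hζ f = y from e] at h1
    exact (h1 1 (one_mem _)).not_unitCoeff (hy 1 (one_mem _))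

variable {e e1 eh : ℕ} {F F1 Fh : Polynomial O}

include hO' hζ hq2 in
/-- **Congruence at two crossing points.** -/
theorem node_congr_of_normal {y g : LRing q M O} (hy : AdaptedM (P := P) y)
    (hy1 : AdaptedM (P := P) ((atkinEquiv hM hζ).symm y))
    (hF : GoodPoly haux hA hO T (normT y) e F)
    (hF1 : GoodPoly haux hA hO T (normT ((atkinEquiv hM hζ).symm y)) e1 F1)
    (hh : GoodPoly haux hA hO T (hasseL haux hM hA hζ) eh Fh)
    (hrel : y - hasseL haux hM hA hζ ^ q * g ∈ pInf hO)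
    {𝔪 𝔪' : Ideal (LRing q M O)} (h𝔪 : NodeM hO 𝔪) (h𝔪' : NodeM hO 𝔪') {σ σ' : ℍ}
    {hσ : GoodPoint haux O σ} {hσ' : GoodPoint haux O σ'}
    (ht : raiseL M (tPar haux hA hσ) ∈ 𝔪) (ht' : raiseL M (tPar haux hA hσ') ∈ 𝔪') {i i' : ℕ}
    (hi : OrdAt haux hA hO 𝔪 hσ g i) (hi' : OrdAt haux hA hO 𝔪' hσ' g i') :
    (q : ℤ) ∣ (i : ℤ) - i' := by
  have key : ∀ {𝔫 : Ideal (LRing q M O)}, NodeM hO 𝔫 → ∀ {ρ : ℍ} {hρ : GoodPoint haux O ρ},
      raiseL M (tPar haux hA hρ) ∈ 𝔫 → ∀ {l : ℕ}, OrdAt haux hA hO 𝔫 hρ g l →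
      OrdAt haux hA hO 𝔫 hρ y (q * 2 + l) := by
    intro 𝔫 h𝔫 ρ hρ htρ l hl
    have := h𝔫.isMax
    have := (h𝔫.comap hO hM hζ).2.isMax
    obtain ⟨ρ', hρ', htρ', -⟩ := exists_value haux hA hO hO' hM hζ T hh
      (h𝔫.comap hO hM hζ).2.inf (h𝔫.comap hO hM hζ).2.zero
    obtain ⟨h, hH⟩ := exists_ordAt haux hA hO hO' hM hζ hq2 hρ h𝔫.inf htρ
      (hasseL_unitInf haux hM hA hζ hO hq2)
    obtain rfl := node_hasse_ord haux hA hO hO' hM hζ hq2 T h𝔫.inf h𝔫.zero hρ htρ hρ' htρ' hH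
    exact ((hH.pow haux hA hO q).mul haux hA hO hl).congr haux hA hO hrel
  have h := ordAt_node_congr haux hA hO hO' hM hζ hq2 T hy hy1 hF hF1 hh h𝔪 h𝔪' ht ht'
    (key h𝔪 ht hi) (key h𝔪' ht' hi')
  convert h using 1
  push_cast
  ring

variable (hP : P.HasCDVRs)

include hζ hq2 in
/-- **The residual orders at a point of the place.** -/
theorem exists_point_orders (hh : GoodPoly haux hA hO'.le T (hasseL haux hM hA hζ) eh Fh)
    {τ : ℍ} (hg : GoodPoint haux P.ring τ) {τ1 : ℍ} (hg1 : GoodPoint haux O τ1)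
    (hfix : T.D.σO ⟨_, hg1.val.mem⟩ = ⟨_, hg1.val.mem⟩)
    (hres : P.res ⟨_, hO'.le hg1.val.mem⟩ = P.res ⟨_, hg.val.mem⟩) {g : LRing q M O}
    (hgu : UnitInf P g) (hdiv : Divisible q M O q (g : ℍ → ℂ)) :
    ∃ (𝔪 : Ideal (LRing q M O)) (i h : ℕ), 𝔪.IsMaximal ∧
      raiseL M (tPar haux hA hg1) ∈ 𝔪 ∧ OrdAt haux hA hO'.le 𝔪 hg1 g i ∧
      (pointO haux hP hM hg hO' g).order = (i : ℕ∞) ∧
      (pointO haux hP hM hg hO' (hasseL haux hM hA hζ)).order = (h : ℕ∞) ∧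
      ((h = 0 ∧ q ∣ i) ∨ (h = 2 ∧ NodeM hO'.le 𝔪)) := by
  obtain ⟨𝔪, h𝔪, hinf, ht, hord⟩ := exists_pointO_ideal (q := q) haux hP hM hg hA hO' hg1 hres
  have := h𝔪
  obtain ⟨i, hi⟩ := exists_ordAt haux hA hO'.le hO' hM hζ hq2 hg1 hinf ht hgu
  obtain ⟨h, hH⟩ := exists_ordAt haux hA hO'.le hO' hM hζ hq2 hg1 hinf ht
    (hasseL_unitInf haux hM hA hζ hO'.le hq2)
  refine ⟨𝔪, i, h, h𝔪, ht, hi, (hord g i hi).2, (hord _ h hH).2, ?_⟩
  by_cases hzero : pZero hO'.le ≤ 𝔪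
  · have hn : NodeM hO'.le 𝔪 := ⟨h𝔪, hinf, hzero⟩
    have := (hn.comap hO'.le hM hζ).2.isMax
    obtain ⟨τ2, hg2, ht2, -⟩ := exists_value haux hA hO'.le hO' hM hζ T hh
      (hn.comap hO'.le hM hζ).2.inf (hn.comap hO'.le hM hζ).2.zero
    exact Or.inr ⟨node_hasse_ord haux hA hO'.le hO' hM hζ hq2 T hinf hzero hg1 ht hg2 ht2 hH, hn⟩
  · exact Or.inl ⟨smooth_hasse_ord haux hA hO'.le hO' hM hζ hq2 T hinf hzero hg1 ht hfix hH,
      (smooth_ord haux hA hO'.le hO' hM hζ hq2 T hinf hzero hg1 ht hfix hdiv hi).1⟩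

end FermatAgent.BAD.AtP
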