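import Fermat.Agent.BAD.AtP.Geo.Normal
import Fermat.Agent.BAD.AtP.Geo.Orders
import Fermat.Agent.BAD.AtP.Level.Kummer

/-!
# The residual orders of a Kummer unit at the points of the place

At the points where `hasseL` does not vanish the order is divisible by `q`, at the others it is
congruent to one constant; at the cusps over `∞` it is divisible by `q`.
-/

set_option autoImplicit false

open UpperHalfPlane CongruenceSubgroup IsLocalRing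
open scoped MatrixGroups

noncomputable section

namespace FermatAgent.BAD.AtP

open FermatAgent.BAD.TwoP
open FermatAgent.ES (BRing act zetaC AuxLevel CPlace GoodRoot GoodPoint IsTwist IsParChar auxW
  haupt vanishOrd)

theorem inclL_normT {q M : ℕ} [Fact q.Prime] [NeZero M] {O O' : Subring ℂ} (h : O ≤ O')
    (y : LRing q M O) : inclL h (normT y) = normT (inclL h y) := by
  rw [normT, normT, map_prod]
  exact Finset.prod_congr rfl fun x _ => Subtype.ext rfl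

theorem unitInf_normT {q M : ℕ} [Fact q.Prime] [NeZero M] {O : Subring ℂ} {P : CPlace q}
    (hO : O ≤ P.ring) {y : LRing q M O} (hy : UnitInf P y) : UnitInf P (normT y) := by
  classical
  refine Finset.prod_induction _ (fun f : LRing q M O => UnitInf P f)
    (fun f g hf hg => UnitAt.mul hO hf hg) (fun γ _ => ?_)
    fun x _ => actL_unitInf (outT_mem x) hy
  exact ⟨0, by rw [map_one, HahnSeries.coeff_one, if_pos rfl, map_one]⟩

theorem unitInf_inclL {q M : ℕ} [Fact q.Prime] [NeZero M] {O O' : Subring ℂ} {P : CPlace q}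
    (h : O ≤ O') {y : LRing q M O} (hy : UnitInf P y) : UnitInf P (inclL h y) :=
  fun γ hγ => hy γ hγ

theorem unitZero_inclL {q M : ℕ} [Fact q.Prime] [NeZero M] {O O' : Subring ℂ} {P : CPlace q}
    (h : O ≤ O') {y : LRing q M O} (hy : UnitZero P y) : UnitZero P (inclL h y) :=
  fun γ hγ => hy γ hγ

/-- The Hasse function does not depend on the coefficient ring. -/
theorem inclL_hasseL {q M : ℕ} [Fact q.Prime] [NeZero M] {O O' : Subring ℂ} (h : O ≤ O')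
    (haux : AuxLevel M 2) (hM : M.Coprime q) (hA : GoodRoot M O (zetaC M))
    (hζ : zetaC (q * M) ∈ O) (hA' : GoodRoot M O' (zetaC M)) (hζ' : zetaC (q * M) ∈ O') :
    inclL h (hasseL haux hM hA hζ) = hasseL haux hM hA' hζ' :=
  Subtype.ext rfl

theorem rel_inclL {q M : ℕ} [Fact q.Prime] [NeZero M] {O0 O O' : Subring ℂ} {P : CPlace q}
    (h0 : O0 ≤ O) (h : O ≤ O') (hO : O ≤ P.ring) (hO' : O' ≤ P.ring) (haux : AuxLevel M 2)
    (hM : M.Coprime q) (hA : GoodRoot M O (zetaC M)) (hζ : zetaC (q * M) ∈ O)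
    (hA' : GoodRoot M O' (zetaC M)) (hζ' : zetaC (q * M) ∈ O') {y : LRing q M O}
    {g : LRing q M O0} (hrel : y - hasseL haux hM hA hζ ^ q * inclL h0 g ∈ pInf hO) :
    inclL h y - hasseL haux hM hA' hζ' ^ q * inclL (h0.trans h) g ∈ pInf hO' := by
  have e : inclL h (y - hasseL haux hM hA hζ ^ q * inclL h0 g) =
      inclL h y - hasseL haux hM hA' hζ' ^ q * inclL (h0.trans h) g := by
    rw [map_sub, map_mul, map_pow, inclL_hasseL h haux hM hA hζ hA' hζ']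
    rfl
  rw [← e]
  exact fun γ hγ => hrel γ hγ

theorem pointO_inclL {q M : ℕ} [Fact q.Prime] [NeZero M] {O O' : Subring ℂ} {P : CPlace q}
    (h : O ≤ O') (haux : AuxLevel M 2) (hP : P.HasCDVRs) (hM : M.Coprime q) {τ : ℍ}
    (hg : GoodPoint haux P.ring τ) (hO : P.IsCDVR O) (hO' : P.IsCDVR O') (f : LRing q M O) :
    pointO haux hP hM hg hO' (inclL h f) = pointO haux hP hM hg hO f :=
  congrArg (pointP haux hP hM hg) (Subtype.ext rfl)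

theorem inclL_atkinSymm {q M : ℕ} [Fact q.Prime] [NeZero M] {O O' : Subring ℂ} (h : O ≤ O')
    (hM : M.Coprime q) (hζ : zetaC (q * M) ∈ O) (hζ' : zetaC (q * M) ∈ O') (y : LRing q M O) :
    inclL h ((atkinEquiv hM hζ).symm y) = (atkinEquiv hM hζ').symm (inclL h y) := by
  refine (RingEquiv.symm_apply_eq _).mpr (Subtype.ext ?_) |>.symm
  conv_lhs => rw [← (atkinEquiv hM hζ).apply_symm_apply y]
  rw [coe_atkinEquiv, show (inclL h (atkinEquiv hM hζ ((atkinEquiv hM hζ).symm y)) : ℍ → ℂ) =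
    (atkinEquiv hM hζ ((atkinEquiv hM hζ).symm y) : ℍ → ℂ) from rfl, coe_atkinEquiv]
  rfl

variable {q M : ℕ} [hq : Fact q.Prime] [NeZero M] (Φ : ℂ ≃+* PadicAlgCl q)
  (haux : AuxLevel M 2) (hM : M.Coprime q) (hq2 : q ≠ 2) {L : ℕ} [NeZero L] (hLM : L ∣ M)
  {χ : Gamma0 (L * q) →* ℂˣ} (hχ : IsParChar (Gamma0 (L * q)) χ) {v : ℍ → ℂ}
  (hv : IsTwist (Gamma0 (L * q)) ((2 * 2 : ℕ) : ℤ) χ v)
  {n0 : ℕ} [NeZero n0] (hn0 : M ∣ q ^ n0 - 1)
  {g : LRing q M (oRing Φ n0)} {s : ℍ → ℂ} (hgu : UnitInf (CPlace.ofEquiv Φ) g)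
  (hs : s ∈ LSub q M)
  (hgs : (g : ℍ → ℂ) = (s * fun τ => v τ / auxW haux τ ^ 2) ^ q)

theorem ne_zero_of_unitInf {n : ℕ} [NeZero n] {f : LRing q M (oRing Φ n)}
    (hf : UnitInf (CPlace.ofEquiv Φ) f) : (f : ℍ → ℂ) ≠ 0 := fun h => by
  obtain ⟨i, hi⟩ := hf 1 (one_mem _)
  rw [show f = 0 from Subtype.ext h, map_zero, HahnSeries.coeff_zero, map_zero] at hi
  exact zero_ne_one hi

theorem adaptedM_of_root {O : Subring ℂ} [IsDiscreteValuationRing O] {P : CPlace q}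
    (hO' : P.IsCDVR O)
    (hA : GoodRoot M O (zetaC M)) (hζ : zetaC (q * M) ∈ O) (haux : AuxLevel M 2)
    (hdiv : ∀ z : LRing q M O, (z : ℍ → ℂ) ≠ 0 →
      (∀ τ (j : ℕ), vanishOrd (z : ℍ → ℂ) τ = j → q ∣ j) → Divisible q M O q (z : ℍ → ℂ))
    (hne : ∀ z : LRing q M O, UnitInf P z → (z : ℍ → ℂ) ≠ 0) (hq2 : q ≠ 2)
    {L : ℕ} [NeZero L] (hLM : L ∣ M) {χ : Gamma0 (L * q) →* ℂˣ}
    (hχ : IsParChar (Gamma0 (L * q)) χ) {v : ℍ → ℂ}
    (hv : IsTwist (Gamma0 (L * q)) ((2 * 2 : ℕ) : ℤ) χ v) {t : ℍ → ℂ} (ht : t ∈ LSub q M)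
    {y : LRing q M O} (hy : UnitInf P y) (hy' : UnitZero P y)
    (hyt : (y : ℍ → ℂ) = (t * fun τ => v τ / auxW haux τ ^ 2) ^ q) :
    AdaptedM (P := P) y ∧ AdaptedM (P := P) ((atkinEquiv hM hζ).symm y) := by
  have hyt' : (y : ℍ → ℂ) = ES.act 1 ((t * fun τ => v τ / auxW haux τ ^ 2) ^ q) := by
    rw [hyt, ES.act_one]
  obtain ⟨h1, -, h2⟩ := kummer_dvdM hM hζ haux hLM hχ hv ht (one_mem (Gamma0 q)) hyt'
  obtain ⟨u1, u2⟩ := unit_symm hM hζ hA haux hO' hq2 hy hy'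
  exact ⟨⟨hy, hy', hdiv _ (hne _ hy) h1.1, h1.2⟩, ⟨u1, u2, hdiv _ (hne _ u1) h2.1, h2.2⟩⟩

include haux hM hLM hχ hv in
/-- Multiples of the Kummer element have divisible multiplicities. -/
theorem adapted_kum {n : ℕ} [NeZero n] (hn : M ∣ q ^ n - 1) {y : LRing q M (oRing Φ n)}
    {t : ℍ → ℂ} (ht : t ∈ LSub q M) (hy : UnitInf (CPlace.ofEquiv Φ) y)
    (hy' : UnitZero (CPlace.ofEquiv Φ) y)
    (hyt : (y : ℍ → ℂ) = (t * fun τ => v τ / auxW haux τ ^ 2) ^ q) (hq2 : q ≠ 2) :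
    AdaptedM (P := CPlace.ofEquiv Φ) y ∧
      AdaptedM (P := CPlace.ofEquiv Φ)
        ((atkinEquiv hM (zetaC_mem_oRingM Φ hM hn).1).symm y) :=
  adaptedM_of_root hM (isCDVR_oRing Φ n) (goodRoot_oRingM Φ hM hn)
    (zetaC_mem_oRingM Φ hM hn).1 haux (fun _ h0 h => divisible_oRingM Φ haux hM hn h0 h)
    (fun _ h => ne_zero_of_unitInf Φ h) hq2 hLM hχ hv ht hy hy' hyt

theorem dvdMult_of_root {O : Subring ℂ} [IsDiscreteValuationRing O] (hM : M.Coprime q)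
    (hζ : zetaC (q * M) ∈ O) (haux : AuxLevel M 2)
    {L : ℕ} [NeZero L] (hLM : L ∣ M) {χ : Gamma0 (L * q) →* ℂˣ}
    (hχ : IsParChar (Gamma0 (L * q)) χ) {v : ℍ → ℂ}
    (hv : IsTwist (Gamma0 (L * q)) ((2 * 2 : ℕ) : ℤ) χ v) {t : ℍ → ℂ} (ht : t ∈ LSub q M)
    {y : LRing q M O} (hyt : (y : ℍ → ℂ) = (t * fun τ => v τ / auxW haux τ ^ 2) ^ q) :
    DvdMult y :=
  (kummer_dvdM hM hζ haux hLM hχ hv ht (one_mem (Gamma0 q))
    (hyt.trans (ES.act_one _).symm)).1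

include haux hM hLM hχ hv hgu hs hgs in
theorem divisible_kum {n : ℕ} [NeZero n] (hn : M ∣ q ^ n - 1) (hnn : n0 ∣ n) :
    Divisible q M (oRing Φ n) q (inclNM Φ hnn g : ℍ → ℂ) ∧
      ∀ (γ : SL(2, ℤ)) (hγ : γ ∈ Gamma0 q), (q : ℤ) ∣ (infSer γ hγ (inclNM Φ hnn g)).order := by
  have hne : (inclNM Φ hnn g : ℍ → ℂ) ≠ 0 :=
    ne_zero_of_unitInf Φ (unitInf_inclL (oRing_mono Φ hnn) hgu)
  have h : DvdMult (inclNM Φ hnn g) :=
    dvdMult_of_root hM (zetaC_mem_oRingM Φ hM hn).1 haux hLM hχ hv hs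
      ((coe_inclL (oRing_mono Φ hnn) g).trans hgs)
  exact ⟨divisible_oRingM Φ haux hM hn hne h.1, h.2⟩

include haux hM hLM hχ hv hn0 hgu hs hgs hq2 in
/-- **At the cusps over `∞`.** -/
theorem dvd_cusp_order {γ : SL(2, ℤ)} (hγ : γ ∈ Gamma0 q) :
    resInf γ hγ g ≠ 0 ∧ (q : ℤ) ∣ (resInf γ hγ g).order := by
  have hO' := isCDVR_oRing Φ n0
  have := hO'.complete
  have hne : resInf γ hγ g ≠ 0 := fun h0 =>
    ((resInf_eq_zero_iff hO' γ hγ g).mp h0).not_unitCoeff (hgu γ hγ)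
  obtain ⟨T, -⟩ := exists_tauDataM Φ hM hn0
  obtain ⟨h1, h2⟩ := divisible_kum Φ haux hM hLM hχ hv hgu hs hgs hn0 dvd_rfl
  exact ⟨hne, (T.cusp_step haux (goodRoot_oRingM Φ hM hn0) hq2 (y := g) h1 hγ hne (h2 γ hγ)
    (j := 0) (Nat.zero_le q) (z := T.D.conjL haux g - g) (by rw [pow_zero, one_mul])).1⟩

/-- The residual orders of `g` and `hasseL` at a point of the place. -/
def PointOrd {τ : ℍ} (hg : GoodPoint haux (CPlace.ofEquiv Φ).ring τ) (g : LRing q M (oRing Φ n0))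
    (hn0 : M ∣ q ^ n0 - 1) (i h : ℕ) : Prop :=
  (pointO haux (ES.hasCDVRs_ofEquiv Φ) hM hg (isCDVR_oRing Φ n0) g).order = (i : ℕ∞) ∧
    (pointO haux (ES.hasCDVRs_ofEquiv Φ) hM hg (isCDVR_oRing Φ n0)
      (hasseL haux hM (goodRoot_oRingM Φ hM hn0) (zetaC_mem_oRingM Φ hM hn0).1)).order = (h : ℕ∞)

/-- The residual orders at a point of the place are unique. -/
theorem PointOrd.unique {τ : ℍ} {hg : GoodPoint haux (CPlace.ofEquiv Φ).ring τ} {i h i' h' : ℕ}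
    (h1 : PointOrd Φ haux hM hg g hn0 i h) (h2 : PointOrd Φ haux hM hg g hn0 i' h') :
    i = i' ∧ h = h' := by
  exact ⟨by exact_mod_cast h1.1.symm.trans h2.1, by exact_mod_cast h1.2.symm.trans h2.2⟩

include hM in
/-- A good point over a coefficient ring with the residue of a point of the place. -/
theorem exists_lift_point {τ : ℍ} (hg : GoodPoint haux (CPlace.ofEquiv Φ).ring τ) :
    ∃ (τ1 : ℍ) (N : ℕ), 0 < N ∧ ∀ n, N ∣ n → ∀ [NeZero n],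
      ∃ (hg1 : GoodPoint haux (oRing Φ n) τ1),
        (∀ T : TauData q M (CPlace.ofEquiv Φ) (oRing Φ n),
          (∀ z : ℂ, T.D.σ z = conjC Φ (tauP Φ) z) →
          T.D.σO ⟨_, hg1.val.mem⟩ = ⟨_, hg1.val.mem⟩) ∧
        (CPlace.ofEquiv Φ).res ⟨_, (oRing_le Φ n) hg1.val.mem⟩ =
          (CPlace.ofEquiv Φ).res ⟨_, hg.val.mem⟩ := by
  set P := CPlace.ofEquiv Φ
  set a := haupt haux.dvd τ
  have ha : ‖Φ a‖ = 1 := by
    have h := P.abv_eq_one_of_unitIn hg.val.unit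
    rwa [CPlace.ofEquiv_abv] at h
  have ha1 : ‖Φ a - 1‖ = 1 := by
    have h := P.abv_eq_one_of_unitIn hg.val.unit_one
    rwa [CPlace.ofEquiv_abv, map_sub, map_one] at h
  have hc0 : resP Φ a ≠ 0 := fun h => by
    rw [resP, ← CFT.Local.res_zero, CFT.Local.res_eq_res_iff ha.le (by simp), sub_zero, ha] at h
    exact lt_irrefl _ h
  have hc1 : resP Φ a ≠ 1 := fun h => by
    rw [resP, ← CFT.Local.res_one, CFT.Local.res_eq_res_iff ha.le norm_one.le, ha1] at h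
    exact lt_irrefl _ h
  obtain ⟨τ1, N, hN, hres, hfix, hgood⟩ := exists_goodM Φ hM haux hc0 hc1
  refine ⟨τ1, N, hN, fun n hn _ => ⟨hgood n hn, fun T hT => Subtype.ext ?_, ?_⟩⟩
  · rw [T.D.coe_σO, hT]
    exact hfix
  · have hmem := (oRing_le Φ n) (hgood n hn).val.mem
    rw [CPlace.mem_ring, CPlace.ofEquiv_abv] at hmem
    rw [P.res_eq_iff, CPlace.ofEquiv_abv, map_sub]
    exact (CFT.Local.res_eq_res_iff hmem ha.le).mp hres

/-- The data at two points over a larger coefficient ring. -/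
def PairData {τ τ' : ℍ} (hn0 : M ∣ q ^ n0 - 1) (g : LRing q M (oRing Φ n0))
    (hg : GoodPoint haux (CPlace.ofEquiv Φ).ring τ)
    (hg' : GoodPoint haux (CPlace.ofEquiv Φ).ring τ') (σ σ' : ℍ) {n : ℕ} [NeZero n]
    (hn : M ∣ q ^ n - 1) (hnn : n0 ∣ n) (T : TauData q M (CPlace.ofEquiv Φ) (oRing Φ n)) : Prop :=
  ∃ (eh : ℕ) (Fh : Polynomial (oRing Φ n)),
    GoodPoly haux (goodRoot_oRingM Φ hM hn) (oRing_le Φ n) T
        (hasseL haux hM (goodRoot_oRingM Φ hM hn) (zetaC_mem_oRingM Φ hM hn).1) eh Fh ∧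
    ∃ (i h i' h' : ℕ), PointOrd Φ haux hM hg g hn0 i h ∧ PointOrd Φ haux hM hg' g hn0 i' h' ∧
      ∃ (𝔪 𝔪' : Ideal (LRing q M (oRing Φ n))) (hσn : GoodPoint haux (oRing Φ n) σ)
        (hσn' : GoodPoint haux (oRing Φ n) σ'),
        raiseL M (tPar haux (goodRoot_oRingM Φ hM hn) hσn) ∈ 𝔪 ∧
        raiseL M (tPar haux (goodRoot_oRingM Φ hM hn) hσn') ∈ 𝔪' ∧
        OrdAt haux (goodRoot_oRingM Φ hM hn) (oRing_le Φ n) 𝔪 hσn (inclNM Φ hnn g) i ∧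
        OrdAt haux (goodRoot_oRingM Φ hM hn) (oRing_le Φ n) 𝔪' hσn' (inclNM Φ hnn g) i' ∧
        ((h = 0 ∧ q ∣ i) ∨ (h = 2 ∧ NodeM (oRing_le Φ n) 𝔪)) ∧
        ((h' = 0 ∧ q ∣ i') ∨ (h' = 2 ∧ NodeM (oRing_le Φ n) 𝔪'))

/-- The point `σ` is fixed by the automorphism and has the residue of the point `τ`. -/
def LiftsPoint {τ : ℍ} {n : ℕ} [NeZero n] (T : TauData q M (CPlace.ofEquiv Φ) (oRing Φ n))
    (hg : GoodPoint haux (CPlace.ofEquiv Φ).ring τ) (σ : ℍ) : Prop :=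
  ∃ hg1 : GoodPoint haux (oRing Φ n) σ,
    T.D.σO ⟨_, hg1.val.mem⟩ = ⟨_, hg1.val.mem⟩ ∧
      (CPlace.ofEquiv Φ).res ⟨_, (oRing_le Φ n) hg1.val.mem⟩ =
        (CPlace.ofEquiv Φ).res ⟨_, hg.val.mem⟩

include haux hM hLM hχ hv hn0 hgu hs hgs hq2 in
/-- Points lifting two points of the place, with a good polynomial for the Hasse function, give
the data at the pair. -/
theorem exists_pairData {τ τ' : ℍ} (hg : GoodPoint haux (CPlace.ofEquiv Φ).ring τ)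
    (hg' : GoodPoint haux (CPlace.ofEquiv Φ).ring τ') {σ σ' : ℍ} {n : ℕ} [NeZero n] (hnn : n0 ∣ n)
    (T : TauData q M (CPlace.ofEquiv Φ) (oRing Φ n))
    (hσ : LiftsPoint Φ haux T hg σ) (hσ' : LiftsPoint Φ haux T hg' σ')
    (hgh : ∃ (eh : ℕ) (Fh : Polynomial (oRing Φ n)),
      GoodPoly haux (goodRoot_oRingM Φ hM (dvd_pow_sub_one_trans (q := q) hn0 hnn)) (oRing_le Φ n) T
        (inclNM Φ hnn (hasseL haux hM (goodRoot_oRingM Φ hM hn0) (zetaC_mem_oRingM Φ hM hn0).1))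
        eh Fh) :
    PairData Φ haux hM hn0 g hg hg' σ σ' (dvd_pow_sub_one_trans (q := q) hn0 hnn) hnn T := by
  have hn := dvd_pow_sub_one_trans (q := q) hn0 hnn
  have hA := goodRoot_oRingM Φ hM hn
  have hζ := (zetaC_mem_oRingM Φ hM hn).1
  have hP := ES.hasCDVRs_ofEquiv Φ
  obtain ⟨eh, Fh, hgh⟩ := hgh
  rw [inclL_hasseL (oRing_mono Φ hnn) haux hM (goodRoot_oRingM Φ hM hn0)
    (zetaC_mem_oRingM Φ hM hn0).1 hA hζ] at hgh
  obtain ⟨hσn, hfixσ, hresσ⟩ := hσ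
  obtain ⟨hσn', hfixσ', hresσ'⟩ := hσ'
  obtain ⟨hdiv, -⟩ := divisible_kum Φ haux hM hLM hχ hv hgu hs hgs hn hnn
  obtain ⟨𝔪, i, h, -, ht, hi, hio, hho, hcase⟩ := exists_point_orders haux hA (isCDVR_oRing Φ n)
    hM hζ hq2 T hP hgh hg hσn hfixσ hresσ (g := inclNM Φ hnn g)
    (unitInf_inclL (oRing_mono Φ hnn) hgu) hdiv
  obtain ⟨𝔪', i', h', -, ht', hi', hio', hho', hcase'⟩ := exists_point_orders haux hA
    (isCDVR_oRing Φ n) hM hζ hq2 T hP hgh hg' hσn' hfixσ' hresσ' (g := inclNM Φ hnn g)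
    (unitInf_inclL (oRing_mono Φ hnn) hgu) hdiv
  rw [← inclL_hasseL (oRing_mono Φ hnn) haux hM (goodRoot_oRingM Φ hM hn0)
    (zetaC_mem_oRingM Φ hM hn0).1 hA hζ,
    pointO_inclL (oRing_mono Φ hnn) haux hP hM hg (isCDVR_oRing Φ n0)] at hho
  rw [← inclL_hasseL (oRing_mono Φ hnn) haux hM (goodRoot_oRingM Φ hM hn0)
    (zetaC_mem_oRingM Φ hM hn0).1 hA hζ,
    pointO_inclL (oRing_mono Φ hnn) haux hP hM hg' (isCDVR_oRing Φ n0)] at hho'
  rw [pointO_inclL (oRing_mono Φ hnn) haux hP hM hg (isCDVR_oRing Φ n0)] at hio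
  rw [pointO_inclL (oRing_mono Φ hnn) haux hP hM hg' (isCDVR_oRing Φ n0)] at hio'
  exact ⟨_, _, hgh, i, h, i', h', ⟨hio, hho⟩, ⟨hio', hho'⟩, 𝔪, 𝔪', hσn, hσn', ht, ht', hi, hi',
    hcase, hcase'⟩

include haux hM hLM hχ hv hn0 hgu hs hgs hq2 in
/-- **At two points of the place.** -/
theorem exists_pair_orders {τ τ' : ℍ} (hg : GoodPoint haux (CPlace.ofEquiv Φ).ring τ)
    (hg' : GoodPoint haux (CPlace.ofEquiv Φ).ring τ') :
    ∃ i h i' h' : ℕ, PointOrd Φ haux hM hg g hn0 i h ∧ PointOrd Φ haux hM hg' g hn0 i' h' ∧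
      ((h = 0 ∧ q ∣ i) ∨ (h = 2 ∧ (h' = 2 → (q : ℤ) ∣ (i : ℤ) - i'))) := by
  set P := CPlace.ofEquiv Φ
  have hP := ES.hasCDVRs_ofEquiv Φ
  have hA0 := goodRoot_oRingM Φ hM hn0
  have hζ0 := (zetaC_mem_oRingM Φ hM hn0).1
  set H0 := hasseL haux hM hA0 hζ0
  -- the polynomial of `hasseL`
  obtain ⟨eh, Fh, hFh⟩ := exists_hasPoly haux hA0 (oRing_le Φ n0) hM (f := H0)
    fun δ hδ => act_hasseL haux hA0 hM hζ0 hq2 hδ
  have hFh0 := hFh.ne_zero haux hA0 (oRing_le Φ n0) (isCDVR_oRing Φ n0)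
    (hasseL_unitInf haux hM hA0 hζ0 (oRing_le Φ n0) hq2)
  obtain ⟨Nh, hNh, hgoodh⟩ := exists_goodPolyM Φ hM haux hn0 hFh hFh0
  obtain ⟨σ, N, hN, hσ⟩ := exists_lift_point Φ haux hM hg
  obtain ⟨σ', N', hN', hσ'⟩ := exists_lift_point Φ haux hM hg'
  set n1 := n0 * (Nh * (N * N'))
  have : NeZero n1 := ⟨(Nat.mul_pos (NeZero.pos n0) (Nat.mul_pos hNh (Nat.mul_pos hN hN'))).ne'⟩
  -- the points at a multiple of `n1`
  have key : ∀ (n : ℕ) [NeZero n] (hn1 : n1 ∣ n) (T : TauData q M P (oRing Φ n)),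
      (∀ z : ℂ, T.D.σ z = conjC Φ (tauP Φ) z) →
      PairData Φ haux hM hn0 g hg hg' σ σ'
        (dvd_pow_sub_one_trans (q := q) hn0 ((dvd_mul_right n0 _).trans hn1))
        ((dvd_mul_right n0 _).trans hn1) T :=
    fun n _ hn1 T hT => exists_pairData Φ haux hM hq2 hLM hχ hv hn0 hgu hs hgs hg hg'
      ((dvd_mul_right n0 _).trans hn1) T
      (by
        obtain ⟨h1, h2, h3⟩ := hσ n ((((dvd_mul_right N N').trans (dvd_mul_left _ Nh)).trans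
          (dvd_mul_left _ n0)).trans hn1)
        exact ⟨h1, h2 T hT, h3⟩)
      (by
        obtain ⟨h1, h2, h3⟩ := hσ' n ((((dvd_mul_left N' N).trans (dvd_mul_left _ Nh)).trans
          (dvd_mul_left _ n0)).trans hn1)
        exact ⟨h1, h2 T hT, h3⟩)
      ⟨_, _, hgoodh n ((dvd_mul_right n0 _).trans hn1)
        (((dvd_mul_right Nh _).trans (dvd_mul_left _ n0)).trans hn1) T hT⟩
  obtain ⟨T1, hT1⟩ := exists_tauDataM Φ hM
    (dvd_pow_sub_one_trans (q := q) hn0 (dvd_mul_right n0 (Nh * (N * N'))))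
  obtain ⟨eh1, Fh1, hh1, i, h, i', h', hI, hI', 𝔪, 𝔪', hσ1, -, ht, -, -, -, hcase, -⟩ :=
    key n1 dvd_rfl T1 hT1
  refine ⟨i, h, i', h', hI, hI', ?_⟩
  rcases hcase with h0 | ⟨h2, hnode⟩
  · exact Or.inl h0
  refine Or.inr ⟨h2, fun h2' => ?_⟩
  -- normalisation
  have hn1' : n0 ∣ n1 := dvd_mul_right n0 _
  have hn := dvd_pow_sub_one_trans (q := q) hn0 hn1'
  set hA := goodRoot_oRingM Φ hM hn
  set hζ := (zetaC_mem_oRingM Φ hM hn).1
  have hO' := isCDVR_oRing Φ n1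
  have := hnode.isMax
  have := (hnode.comap (oRing_le Φ n1) hM hζ).2.isMax
  obtain ⟨τ2, hg2, ht2, -⟩ := exists_value haux hA (oRing_le Φ n1) hO' hM hζ T1 hh1
    (hnode.comap (oRing_le Φ n1) hM hζ).2.inf (hnode.comap (oRing_le Φ n1) hM hζ).2.zero
  obtain ⟨hdiv1, -⟩ := divisible_kum Φ haux hM hLM hχ hv hgu hs hgs hn hn1'
  set g1 := inclNM (M := M) Φ hn1' g
  have hgu1 : UnitInf P g1 := unitInf_inclL (oRing_mono Φ hn1') hgu
  obtain ⟨y, t, ht3, -, hyu, hyz, hyt, hyrel⟩ := exists_normalisedM haux hA (oRing_le Φ n1) hO' hM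
    hζ hq2 T1 (g := g1) hgu1 (u := s * fun τ => v τ / auxW haux τ ^ 2)
    ((coe_inclL (oRing_mono Φ hn1') g).trans hgs) hdiv1
    (fun h0 => ne_zero_of_unitInf Φ hgu1 (by rw [h0]; rfl)) hnode.inf hnode.zero hσ1 ht hg2 ht2
  have hyt' : (y : ℍ → ℂ) = ((t * s) * fun τ => v τ / auxW haux τ ^ 2) ^ q := by
    rw [hyt, mul_assoc]
  -- good polynomials for the norms
  have hgen : ∀ f : LRing q M (oRing Φ n1), UnitInf P f → ∃ Nf : ℕ, 0 < Nf ∧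
      ∀ (m : ℕ) [NeZero m] (hnm : n1 ∣ m), Nf ∣ m →
      ∀ T : TauData q M P (oRing Φ m), (∀ z : ℂ, T.D.σ z = conjC Φ (tauP Φ) z) →
      ∃ (e : ℕ) (F : Polynomial (oRing Φ m)),
        GoodPoly haux (goodRoot_oRingM Φ hM (dvd_pow_sub_one_trans (q := q) hn hnm))
          (oRing_le Φ m) T (normT (inclNM Φ hnm f)) e F := by
    intro f hf
    obtain ⟨e, F, hF⟩ := exists_hasPoly haux hA (oRing_le Φ n1) hM (f := normT f)
      fun δ hδ => act_normT f hδ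
    have hF0 := hF.ne_zero haux hA (oRing_le Φ n1) hO' (unitInf_normT (oRing_le Φ n1) hf)
    obtain ⟨Nf, hNf, hgood⟩ := exists_goodPolyM Φ hM haux hn hF hF0
    refine ⟨Nf, hNf, fun m _ hnm hNm T hT => ?_⟩
    have h := hgood m hnm hNm T hT
    rw [show inclNM Φ hnm (normT f) = normT (inclNM Φ hnm f) from inclL_normT _ _] at h
    exact ⟨_, _, h⟩
  obtain ⟨Ny, hNy, hgy⟩ := hgen y hyu
  obtain ⟨Ns, hNs, hgs'⟩ := hgen ((atkinEquiv hM hζ).symm y)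
    (unit_symm hM hζ hA haux hO' hq2 hyu hyz).1
  set n2 := n1 * (Ny * Ns)
  have : NeZero n2 := ⟨(Nat.mul_pos (NeZero.pos n1) (Nat.mul_pos hNy hNs)).ne'⟩
  have h12 : n1 ∣ n2 := dvd_mul_right _ _
  have hn2 := dvd_pow_sub_one_trans (q := q) hn h12
  set hA2 := goodRoot_oRingM Φ hM hn2
  set hζ2 := (zetaC_mem_oRingM Φ hM hn2).1
  obtain ⟨T2, hT2⟩ := exists_tauDataM Φ hM hn2
  obtain ⟨e0, F0, hF0⟩ := hgy n2 h12 ((dvd_mul_right Ny Ns).trans (dvd_mul_left _ n1)) T2 hT2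
  obtain ⟨e1, F1, hF1⟩ := hgs' n2 h12 ((dvd_mul_left Ns Ny).trans (dvd_mul_left _ n1)) T2 hT2
  rw [show inclNM Φ h12 ((atkinEquiv hM hζ).symm y) =
    (atkinEquiv hM hζ2).symm (inclNM Φ h12 y) from inclL_atkinSymm _ hM hζ hζ2 y] at hF1
  obtain ⟨eh2, Fh2, hh2, i2, h2n, i2', h2n', hJ, hJ', 𝔫, 𝔫', hσ2, hσ2', htn, htn', hin, hin',
    hcn, hcn'⟩ := key n2 h12 T2 hT2
  obtain ⟨rfl, rfl⟩ := hI.unique Φ haux hM hn0 hJ
  obtain ⟨rfl, rfl⟩ := hI'.unique Φ haux hM hn0 hJ'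
  have hnodeN : NodeM (oRing_le Φ n2) 𝔫 := by
    rcases hcn with ⟨h0, -⟩ | ⟨-, hn'⟩
    · omega
    · exact hn'
  have hnodeN' : NodeM (oRing_le Φ n2) 𝔫' := by
    rcases hcn' with ⟨h0, -⟩ | ⟨-, hn'⟩
    · omega
    · exact hn'
  obtain ⟨had, had'⟩ := adapted_kum Φ haux hM hLM hχ hv hn2 (y := inclNM Φ h12 y)
    (mul_mem ht3 hs) (unitInf_inclL _ hyu) (unitZero_inclL _ hyz)
    ((coe_inclL (oRing_mono Φ h12) y).trans hyt') hq2
  refine node_congr_of_normal haux hA2 (oRing_le Φ n2) (isCDVR_oRing Φ n2) hM hζ2 hq2 T2 had had'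
    hF0 hF1 hh2 (g := inclNM Φ (hn1'.trans h12) g) ?_ hnodeN hnodeN' htn htn'
    hin hin'
  exact rel_inclL (oRing_mono Φ hn1') (oRing_mono Φ h12) (oRing_le Φ n1) (oRing_le Φ n2) haux hM hA
    hζ hA2 hζ2 hyrel

include haux hM hLM hχ hv hn0 hgu hs hgs hq2 in
/-- **The residual orders at all points of the place.** -/
theorem exists_order_const :
    ∃ m : ℕ, ∀ (τ : ℍ) (hg : GoodPoint haux (CPlace.ofEquiv Φ).ring τ),
      ∃ i h : ℕ, PointOrd Φ haux hM hg g hn0 i h ∧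
        ((h = 0 ∧ q ∣ i) ∨ (h = 2 ∧ (q : ℤ) ∣ (i : ℤ) - m)) := by
  classical
  by_cases hex : ∃ (τ : ℍ) (hg : GoodPoint haux (CPlace.ofEquiv Φ).ring τ) (i h : ℕ),
      PointOrd Φ haux hM hg g hn0 i h ∧ h = 2
  · obtain ⟨τ0, hg0, m, h0, hI0, h02⟩ := hex
    refine ⟨m, fun τ hg => ?_⟩
    obtain ⟨i, h, i', h', hI, hI', hcase⟩ :=
      exists_pair_orders Φ haux hM hq2 hLM hχ hv hn0 hgu hs hgs hg hg0
    obtain ⟨rfl, rfl⟩ := hI0.unique Φ haux hM hn0 hI'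
    exact ⟨i, h, hI, hcase.imp_right fun h2 => ⟨h2.1, h2.2 h02⟩⟩
  · refine ⟨0, fun τ hg => ?_⟩
    obtain ⟨i, h, _, _, hI, -, hcase⟩ :=
      exists_pair_orders Φ haux hM hq2 hLM hχ hv hn0 hgu hs hgs hg hg
    rcases hcase with h0 | ⟨h2, -⟩
    · exact ⟨i, h, hI, Or.inl h0⟩
    · exact absurd ⟨τ, hg, i, h, hI, h2⟩ hex

end FermatAgent.BAD.AtP
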