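import Fermat.Agent.BAD.Toric.PointOrder

/-!
# Orders on the component at `∞` at level `M`

`OrdAt` is the order of a function at a point over a value of `t`; along a chart it gives the
order of the residual series.
-/

set_option autoImplicit false

open UpperHalfPlane CongruenceSubgroup IsLocalRing
open scoped MatrixGroups

noncomputable section

namespace FermatAgent.BAD.AtP

open FermatAgent.ES (BRing zetaC AuxLevel CPlace GoodRoot GoodPoint)

variable {q M m : ℕ} [Fact q.Prime] [NeZero M] {O : Subring ℂ} (haux : AuxLevel M m)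
  (hA : GoodRoot M O (zetaC M)) {P : CPlace q} (hO : O ≤ P.ring)

/-- `f` has the order `i` at the point `𝔪` over the value of `t` at `τ0`. -/
def OrdAt (𝔪 : Ideal (LRing q M O)) {τ0 : ℍ} (hg : GoodPoint haux O τ0) (f : LRing q M O)
    (i : ℕ) : Prop :=
  ∃ e u : BRing M O, raiseL M e ∉ 𝔪 ∧ raiseL M u ∉ 𝔪 ∧
    raiseL M e * f - raiseL M (tPar haux hA hg ^ i * u) ∈ pInf hO

section

variable (hO' : P.IsCDVR O) (hM : M.Coprime q) (hζ : zetaC (q * M) ∈ O) (hqm : q ≠ m)
  [IsDiscreteValuationRing O] {𝔪 : Ideal (LRing q M O)} [h𝔪 : 𝔪.IsMaximal] {τ0 : ℍ}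
  (hg : GoodPoint haux O τ0)
  (hinf : pInf hO ≤ 𝔪) (ht : raiseL M (tPar haux hA hg) ∈ 𝔪)

omit [IsDiscreteValuationRing ↥O] in
include hO' hM hζ hqm hinf ht in
/-- Functions with a unit coefficient at `∞` have orders. -/
theorem exists_ordAt {f : LRing q M O} (hf : UnitInf P f) :
    ∃ i, OrdAt haux hA hO 𝔪 hg f i := by
  obtain ⟨w, u, hw, hwu⟩ := exists_levelM_congr haux hA hO hO' hM hg hinf ht hζ hqm f
  have hu : UnitInf P (raiseL M u : LRing q M O) :=
    UnitAt.of_sub_mem hO ((unitAt_raiseL_of_not_mem haux hO hM (fun h => hw (hinf h)) _).mul hO hf)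
      hwu
  obtain ⟨i, e, v, he, hv, hev⟩ := exists_order haux hA hO hO' hM hg ht
    (Toric.unitCoeff_of_raiseL (hu 1 (one_mem _)))
  refine ⟨i, e * w, v, fun h => ?_, hv, ?_⟩
  · rw [map_mul] at h
    exact (h𝔪.isPrime.mem_or_mem h).elim he hw
  · have := add_mem (Ideal.mul_mem_left _ (raiseL M e) hwu) hev
    convert this using 1
    simp only [map_mul]
    ring

end

section PointHom

variable (hO' : P.IsCDVR O) (hM : M.Coprime q) [IsDiscreteValuationRing O] {τ0 : ℍ}
  (hg : GoodPoint haux O τ0)

include hM hO' in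
theorem psRes_disc_congr {x y : BRing M O}
    (h : (raiseL M x - raiseL M y : LRing q M O) ∈ pInf hO'.le) :
    psRes (ES.discHom haux τ0 hA hg x) = psRes (ES.discHom haux τ0 hA hg y) := by
  have h1 := Toric.psRes_disc_eq_zero haux hA hO' hM hg (d := x - y) (by rwa [map_sub])
  rwa [map_sub, map_sub, sub_eq_zero] at h1

/-- The residual series at a point of the component at `∞`. -/
def pointHom : LRing q M O →+* PowerSeries (ResidueField O) :=
  RingHom.mk' {
    toFun := fun f => psRes (ES.discHom haux τ0 hA hg (trB f))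
    map_one' := by
      rw [← map_one (PowerSeries.map (residue O)), ← map_one (ES.discHom haux τ0 hA hg)]
      refine psRes_disc_congr haux hA hO' hM hg ?_
      rw [map_one]
      simpa using neg_mem (TwoP.sub_trB_mem_pInf hM hO'.le (1 : LRing q M O))
    map_mul' := fun f g => by
      rw [← map_mul, ← map_mul]
      refine psRes_disc_congr haux hA hO' hM hg ?_
      have h1 := sub_mem (add_mem (Ideal.mul_mem_right g _ (TwoP.sub_trB_mem_pInf hM hO'.le f))
        (Ideal.mul_mem_left _ (raiseL M (trB f)) (TwoP.sub_trB_mem_pInf hM hO'.le g)))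
        (TwoP.sub_trB_mem_pInf hM hO'.le (f * g))
      convert h1 using 1
      rw [map_mul]; ring } fun f g => by
      show psRes _ = psRes _ + psRes _
      rw [← map_add, ← map_add]
      refine psRes_disc_congr haux hA hO' hM hg ?_
      have h1 := sub_mem (add_mem (TwoP.sub_trB_mem_pInf hM hO'.le f)
        (TwoP.sub_trB_mem_pInf hM hO'.le g)) (TwoP.sub_trB_mem_pInf hM hO'.le (f + g))
      convert h1 using 1
      rw [map_add]; ring

theorem pointHom_raiseL (x : BRing M O) :
    pointHom (q := q) haux hA hO' hM hg (raiseL M x) = psRes (ES.discHom haux τ0 hA hg x) :=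
  psRes_disc_congr haux hA hO' hM hg (by
    rw [← neg_sub]; exact neg_mem (TwoP.sub_trB_mem_pInf hM hO'.le _))

/-- The residual series at a point kills the functions small on the component at `∞`. -/
theorem pointHom_eq_zero {f : LRing q M O} (hf : f ∈ pInf hO'.le) :
    pointHom haux hA hO' hM hg f = 0 := by
  show psRes _ = 0
  refine Toric.psRes_disc_eq_zero haux hA hO' hM hg ?_
  have h1 := sub_mem hf (TwoP.sub_trB_mem_pInf hM hO'.le f)
  rwa [sub_sub_cancel] at h1

/-- The residual series of a constant is its residue. -/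
theorem pointHom_constL (c : O) :
    pointHom (q := q) (M := M) haux hA hO' hM hg (constL c) = PowerSeries.C (residue O c) := by
  rw [show (constL c : LRing q M O) = raiseL M ⟨_, ES.const_mem_BRing c.2⟩ from rfl,
    pointHom_raiseL, ES.discHom_const haux τ0 hA hg c.2, PowerSeries.map_C]

/-- The residual series of the local parameter is `X`. -/
theorem pointHom_tPar :
    pointHom (q := q) haux hA hO' hM hg (raiseL M (tPar haux hA hg)) = PowerSeries.X := by
  rw [pointHom_raiseL, discHom_tPar, PowerSeries.map_X]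

/-- The maximal ideal of the point. -/
theorem exists_point_ideal :
    ∃ 𝔪 : Ideal (LRing q M O), 𝔪.IsMaximal ∧ pInf hO'.le ≤ 𝔪 ∧
      raiseL M (tPar haux hA hg) ∈ 𝔪 ∧
      ∀ f : LRing q M O, f ∉ 𝔪 ↔ IsUnit (pointHom haux hA hO' hM hg f) := by
  obtain ⟨𝔪, h𝔪, hinf, hiff⟩ := Toric.exists_maximal_at haux hA hO' hM hg
  have key : ∀ f : LRing q M O, f ∈ 𝔪 ↔
      PowerSeries.constantCoeff (pointHom haux hA hO' hM hg f) = 0 := fun f => by
    have h1 := hinf (TwoP.sub_trB_mem_pInf hM hO'.le f)
    rw [show PowerSeries.constantCoeff (pointHom haux hA hO' hM hg f) =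
      Toric.valRes haux hA hg (trB f) from Toric.constantCoeff_psRes_disc haux hA hg (trB f),
      ← hiff]
    exact ⟨fun h => by simpa using sub_mem h h1, fun h => by simpa using add_mem h1 h⟩
  refine ⟨𝔪, h𝔪, hinf, (key _).mpr (by rw [pointHom_tPar, PowerSeries.constantCoeff_X]),
    fun f => ?_⟩
  rw [key, PowerSeries.isUnit_iff_constantCoeff, isUnit_iff_ne_zero]

end PointHom

/-- The order of a function along a chart at a point at which `t - t(τ0)` has order `d`. -/
theorem OrdAt.order_eq {𝔪 : Ideal (LRing q M O)} {τ0 : ℍ} {hg : GoodPoint haux O τ0}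
    [IsLocalRing O] {β : LRing q M O →+* PowerSeries (ResidueField O)}
    (hinf : ∀ f ∈ pInf hO, β f = 0) (hu : ∀ f ∉ 𝔪, IsUnit (β f))
    {w : PowerSeries (ResidueField O)} (hw : IsUnit w) {d : ℕ}
    (ht : β (raiseL M (tPar haux hA hg)) = PowerSeries.X ^ d * w)
    {f : LRing q M O} {i : ℕ} (h : OrdAt haux hA hO 𝔪 hg f i) :
    β f ≠ 0 ∧ (β f).order = ((d * i : ℕ) : ℕ∞) := by
  obtain ⟨e, u, he, hu', hrel⟩ := h
  have h1 := hinf _ hrel
  simp only [map_sub, map_mul, map_pow, ht, mul_pow, ← pow_mul, sub_eq_zero] at h1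
  have hord := congrArg PowerSeries.order h1
  rw [PowerSeries.order_mul, PowerSeries.order_mul, PowerSeries.order_mul,
    PowerSeries.order_zero_of_unit (hu _ he), PowerSeries.order_X_pow,
    PowerSeries.order_zero_of_unit (hw.pow i), PowerSeries.order_zero_of_unit (hu _ hu'),
    zero_add, add_zero, add_zero] at hord
  refine ⟨fun h0 => ?_, hord⟩
  rw [h0, PowerSeries.order_zero] at hord
  exact ENat.top_ne_natCast _ hord

end FermatAgent.BAD.AtP
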