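import Fermat.Agent.BAD.AtP.Geo.Translate
import Fermat.Agent.BAD.TwoP.Step
import Mathlib.RingTheory.Polynomial.Basic

/-!
# The constant on the component at `∞` at level `M`

The quotient `z / y` is killed by a polynomial whose coefficients, after multiplication by the
product of the translates of `y`, are invariant under `lam q 2`; so it is constant.
-/

set_option autoImplicit false

open UpperHalfPlane CongruenceSubgroup IsLocalRing
open scoped MatrixGroups

noncomputable section

namespace FermatAgent.BAD.AtP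

open FermatAgent.BAD.TwoP
open FermatAgent.ES (BRing act zetaC AuxLevel CPlace GoodRoot GoodPoint)

/-! ### Algebraic series are constant -/

theorem eq_C_of_root {k : Type} [Field k] {u : LaurentSeries k} {F : Polynomial k} (hF : F ≠ 0)
    (h : F.eval₂ HahnSeries.C u = 0) : u = HahnSeries.C (u.coeff 0) := by
  by_contra hne
  have hu : u ≠ 0 := fun h0 => hne (by rw [h0, HahnSeries.coeff_zero, map_zero])
  rcases lt_or_ge u.order 0 with hneg | hnn
  · exact (order_eval_neg hu hneg hF).1 h
  · set v := u - HahnSeries.C (u.coeff 0) with hv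
    have hv0 : v ≠ 0 := sub_ne_zero.mpr hne
    have hpos : 0 < v.order := by
      refine lt_of_lt_of_le zero_lt_one ((HahnSeries.le_order_iff_forall hv0).2 fun j hj => ?_)
      rw [hv, HahnSeries.coeff_sub, HahnSeries.C_apply]
      rcases eq_or_lt_of_le (Int.lt_add_one_iff.mp (by simpa using hj) : j ≤ 0) with rfl | hlt
      · rw [HahnSeries.coeff_single_same, sub_self]
      · rw [HahnSeries.coeff_single_of_ne hlt.ne,
          HahnSeries.coeff_eq_zero_of_lt_order (hlt.trans_le hnn), sub_zero]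
    refine (order_eval_pos hv0 hpos hF (u.coeff 0)).1 ?_
    rw [hv, add_sub_cancel, h]

theorem exists_ofPS_mul {k : Type} [Field k] {u v : LaurentSeries k} (hu : u ≠ 0)
    (h : v = 0 ∨ u.order ≤ v.order) :
    ∃ R : PowerSeries k, v = HahnSeries.ofPowerSeries ℤ k R * u := by
  rcases eq_or_ne v 0 with rfl | hv
  · exact ⟨0, by rw [map_zero, zero_mul]⟩
  have hw : v / u ≠ 0 := div_ne_zero hv hu
  have hord : 0 ≤ (v / u).order := by
    have h1 := HahnSeries.order_mul hw hu
    rw [div_mul_cancel₀ v hu] at h1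
    have := h.resolve_left hv
    omega
  obtain ⟨n, hn⟩ := Int.eq_ofNat_of_zero_le hord
  refine ⟨PowerSeries.X ^ n * (v / u).powerSeriesPart, ?_⟩
  rw [map_mul, HahnSeries.ofPowerSeries_X_pow, ← hn,
    LaurentSeries.single_order_mul_powerSeriesPart, div_mul_cancel₀ v hu]

variable {q M : ℕ} [hqp : Fact q.Prime] [NeZero M] {O : Subring ℂ} (haux : AuxLevel M 2)
  (hA : GoodRoot M O (zetaC M)) {P : CPlace q} (hO : O ≤ P.ring) (hO' : P.IsCDVR O)
  (hM : M.Coprime q) (hζ : zetaC (q * M) ∈ O) (hq2 : q ≠ 2) (T : TauData q M P O)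
  [IsDiscreteValuationRing O]

include hO' in
/-- Orders at a point and the residual series at the point. -/
theorem order_pointHom {τ0 : ℍ} (hg : GoodPoint haux O τ0) {𝔪 : Ideal (LRing q M O)}
    (h𝔪 : ∀ f : LRing q M O, f ∉ 𝔪 ↔ IsUnit (pointHom haux hA hO' hM hg f)) {f : LRing q M O}
    {i : ℕ} (hi : OrdAt haux hA hO 𝔪 hg f i) :
    pointHom haux hA hO' hM hg f ≠ 0 ∧ (pointHom haux hA hO' hM hg f).order = (i : ℕ∞) := by
  have h := hi.order_eq haux hA hO (β := pointHom haux hA hO' hM hg)
    (fun g hg' => pointHom_eq_zero haux hA hO' hM hg hg') (fun g hg' => (h𝔪 g).mp hg') isUnit_one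
    (d := 1) (by rw [pow_one, mul_one]; exact pointHom_tPar haux hA hO' hM hg)
  rwa [one_mul] at h

variable {eh : ℕ} {Fh : Polynomial O}

include hO' hζ hq2 in
/-- The step at a point of the component at `∞`. -/
theorem pointHom_step (hh : GoodPoly haux hA hO T (hasseL haux hM hA hζ) eh Fh) {τ0 : ℍ}
    (hg : GoodPoint haux O τ0) (hfix : T.D.σO ⟨_, hg.val.mem⟩ = ⟨_, hg.val.mem⟩)
    {y z : LRing q M O} (hy : UnitInf P y) (hy' : UnitZero P y)
    (hdiv : Divisible q M O q (y : ℍ → ℂ)) {j : ℕ} (hj : j ≤ q)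
    (hz : T.D.conjL haux y - y = constL T.π ^ j * z) :
    ∃ R : PowerSeries (ResidueField O),
      pointHom haux hA hO' hM hg z = R * pointHom haux hA hO' hM hg y := by
  obtain ⟨𝔪, h𝔪, hinf, ht, hiff⟩ := exists_point_ideal (q := q) haux hA hO' hM hg
  obtain ⟨i, hi⟩ := exists_ordAt haux hA hO hO' hM hζ hq2 hg hinf ht hy
  obtain ⟨hy0, hyo⟩ := order_pointHom haux hA hO hO' hM hg hiff hi
  rcases eq_or_ne (pointHom haux hA hO' hM hg z) 0 with hz0 | hz0
  · exact ⟨0, by rw [hz0, zero_mul]⟩
  have hzu : UnitInf P z := (mem_pInf_or_unitInf haux hA hO hM hζ hq2 z).resolve_left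
    fun h => hz0 (pointHom_eq_zero haux hA hO' hM hg h)
  obtain ⟨i', hi'⟩ := exists_ordAt haux hA hO hO' hM hζ hq2 hg hinf ht hzu
  obtain ⟨-, hzo⟩ := order_pointHom haux hA hO hO' hM hg hiff hi'
  have hle : i ≤ i' := by
    by_cases hzero : pZero hO ≤ 𝔪
    · have : (𝔪.comap (atkinEquiv hM hζ).symm.toRingHom).IsMaximal :=
        Ideal.comap_isMaximal_of_surjective _ (atkinEquiv hM hζ).symm.surjective
      obtain ⟨τ1, hg', ht', -⟩ := exists_value haux hA hO hO' hM hζ T hh
        (𝔫 := 𝔪.comap (atkinEquiv hM hζ).symm.toRingHom)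
        (fun f hf => hzero (atkinSymm_mem_pZero hO hM hζ hf))
        (fun f hf => hinf (atkinSymm_mem_pInf hO hM hζ hf))
      obtain ⟨i1, hi1⟩ := exists_ordAt haux hA hO hO' hM hζ hq2
        (𝔪 := 𝔪.comap (atkinEquiv hM hζ).symm.toRingHom) hg'
        (fun f hf => hzero (atkinSymm_mem_pZero hO hM hζ hf)) ht'
        (f := atkinEquiv hM hζ y) (atkinL_unitInf hM hζ hy')
      exact
        (node_ord haux hA hO hO' hM hζ hq2 T hinf hzero hg ht hg' ht' hdiv hi hi1 hj hz).1 i' hi'
    · exact (smooth_ord haux hA hO hO' hM hζ hq2 T hinf hzero hg ht hfix hdiv hi).2 j z i' hj hz hi'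
  have hdy : PowerSeries.X ^ i ∣ pointHom haux hA hO' hM hg y :=
    PowerSeries.X_pow_dvd_iff.mpr (PowerSeries.order_eq_nat.mp hyo).2
  obtain ⟨u, hu⟩ := hdy
  have huu : IsUnit u := by
    rw [PowerSeries.isUnit_iff_constantCoeff, isUnit_iff_ne_zero]
    intro h0
    refine (PowerSeries.order_eq_nat.mp hyo).1 ?_
    rw [hu, PowerSeries.coeff_X_pow_mul', if_pos le_rfl, Nat.sub_self,
      PowerSeries.coeff_zero_eq_constantCoeff_apply, h0]
  obtain ⟨v, hv⟩ := huu.exists_left_inv
  obtain ⟨r, hr⟩ : PowerSeries.X ^ i ∣ pointHom haux hA hO' hM hg z :=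
    (pow_dvd_pow _ hle).trans (PowerSeries.X_pow_dvd_iff.mpr (PowerSeries.order_eq_nat.mp hzo).2)
  exact ⟨r * v, by rw [hr, hu]; linear_combination -(PowerSeries.X ^ i * r) * hv⟩

/-! ### The product over the translates -/

variable (q M) in
/-- The cosets of `lam q M` in `lam q 2`. -/
abbrev CosetT : Type := lam q 2 ⧸ (lam q M).subgroupOf (lam q 2)

instance finite_cosetT : Finite (CosetT q M) := by
  have : (lam q M).FiniteIndex := Subgroup.finiteIndex_of_le gamma_qM_le
  exact Subgroup.finite_quotient_of_finiteIndex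

instance fintype_cosetT : Fintype (CosetT q M) := Fintype.ofFinite _

omit hqp [NeZero M] in
/-- The representatives of the cosets lie in `Γ₀(q)`. -/
theorem outT_mem (x : CosetT q M) : ((x.out : lam q 2) : SL(2, ℤ))⁻¹ ∈ Gamma0 q :=
  inv_mem (x.out : lam q 2).2.1

/-- The translate by a representative of a coset. -/
def transT (x : CosetT q M) : LRing q M O →+* LRing q M O := actL (outT_mem x)

section

omit [IsDiscreteValuationRing ↥O]

theorem act_repT (g : lam q 2) (f : LRing q M O) :
    act (((g : CosetT q M).out : lam q 2) : SL(2, ℤ))⁻¹ (f : ℍ → ℂ) =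
      act (g : SL(2, ℤ))⁻¹ (f : ℍ → ℂ) := by
  have hh : (((g : CosetT q M).out : lam q 2) : SL(2, ℤ))⁻¹ * (g : SL(2, ℤ)) ∈ lam q M :=
    Subgroup.mem_subgroupOf.mp ((QuotientGroup.eq (a := ((g : CosetT q M)).out) (b := g)).mp
      (QuotientGroup.out_eq' _))
  conv_rhs => rw [show (g : SL(2, ℤ))⁻¹ =
    ((((g : CosetT q M).out : lam q 2) : SL(2, ℤ))⁻¹ * g)⁻¹ *
      (((g : CosetT q M).out : lam q 2) : SL(2, ℤ))⁻¹ by group, ES.act_mul,
    f.2.2.2 _ (inv_mem hh)]

theorem transT_one (f : LRing q M O) : transT ((1 : lam q 2) : CosetT q M) f = f :=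
  Subtype.ext (by
    rw [transT, coe_actL, act_repT]
    simp [ES.act_one])

theorem actL_transT {δ : SL(2, ℤ)} (hδ : δ ∈ lam q 2) (x : CosetT q M) (f : LRing q M O) :
    actL hδ.1 (transT x f) = transT ((⟨δ, hδ⟩ : lam q 2)⁻¹ • x) f := by
  refine Subtype.ext ?_
  rw [coe_actL, transT, transT, coe_actL, coe_actL, ← ES.act_mul]
  conv_rhs => rw [← Quotient.out_eq x]
  change _ = act (((((⟨δ, hδ⟩ : lam q 2)⁻¹ * x.out : lam q 2) : CosetT q M).out : lam q 2) :
    SL(2, ℤ))⁻¹ _
  rw [act_repT]
  simp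

end

variable (y z : LRing q M O)

/-- The product of the translates of `y`. -/
def normT : LRing q M O := ∏ x : CosetT q M, transT x y

/-- The product of the `y' T - z'` over the translates. -/
def polT : Polynomial (LRing q M O) :=
  ∏ x : CosetT q M, (Polynomial.C (transT x y) * Polynomial.X - Polynomial.C (transT x z))

omit [IsDiscreteValuationRing ↥O] in
/-- The product of the translates is invariant under `lam q 2`. -/
theorem act_normT {δ : SL(2, ℤ)} (hδ : δ ∈ lam q 2) :
    act δ (normT y : ℍ → ℂ) = normT y := by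
  have h : actL hδ.1 (normT y) = normT y := by
    rw [normT, map_prod]
    exact Fintype.prod_equiv (MulAction.toPerm ((⟨δ, hδ⟩ : lam q 2)⁻¹)) _ _ fun x =>
      actL_transT hδ x y
  exact congrArg Subtype.val h

omit [IsDiscreteValuationRing ↥O] in
theorem act_coeff_polT {δ : SL(2, ℤ)} (hδ : δ ∈ lam q 2) (i : ℕ) :
    act δ ((polT y z).coeff i : ℍ → ℂ) = ((polT y z).coeff i : LRing q M O) := by
  have h : (polT y z).map (actL hδ.1) = polT y z := by
    rw [polT, Polynomial.map_prod]
    refine Fintype.prod_equiv (MulAction.toPerm ((⟨δ, hδ⟩ : lam q 2)⁻¹)) _ _ fun x => ?_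
    simp [actL_transT hδ]
  have h1 := congrArg (fun p => ((p.coeff i : LRing q M O) : ℍ → ℂ)) h
  rwa [Polynomial.coeff_map] at h1

variable {y z}

omit [IsDiscreteValuationRing ↥O] in
theorem coeff_top_polT : (polT y z).coeff (Fintype.card (CosetT q M)) = normT y := by
  rw [polT, normT, ← mul_one (Fintype.card (CosetT q M)), ← Finset.card_univ]
  rw [Polynomial.coeff_prod_of_natDegree_le]
  · refine Finset.prod_congr rfl fun x _ => ?_
    simp [Polynomial.coeff_C]
  · intro x _
    refine (Polynomial.natDegree_sub_le _ _).trans (max_le ?_ ?_)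
    · exact (Polynomial.natDegree_C_mul_le _ _).trans Polynomial.natDegree_X_le
    · simp

omit [IsDiscreteValuationRing ↥O] in
/-- A multiple of every translate of `y` divides the coefficients. -/
theorem map_coeff_polT {S : Type*} [CommRing S] (β : LRing q M O →+* S) {R : CosetT q M → S}
    (hR : ∀ x, β (transT x z) = R x * β (transT x y)) (i : ℕ) :
    β ((polT y z).coeff i) =
      β (normT y) * (∏ x : CosetT q M, (Polynomial.X - Polynomial.C (R x))).coeff i := by
  rw [← Polynomial.coeff_map, polT, Polynomial.map_prod, normT, map_prod,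
    ← Polynomial.coeff_C_mul, map_prod, ← Finset.prod_mul_distrib]
  refine congrArg (fun p => Polynomial.coeff p i) (Finset.prod_congr rfl fun x _ => ?_)
  rw [Polynomial.map_sub, Polynomial.map_mul, Polynomial.map_C, Polynomial.map_C,
    Polynomial.map_X, hR, map_mul]
  ring

include hO' hζ hq2 in
/-- The coefficients are constant multiples of the product on the component at `∞`. -/
theorem exists_const_coeff_polT (hy : UnitInf P y) (hy' : UnitZero P y)
    (hdiv : Divisible q M O q (y : ℍ → ℂ))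
    (hord : ∀ (γ : SL(2, ℤ)) (hγ : γ ∈ Gamma0 q), (q : ℤ) ∣ (infSer γ hγ y).order)
    {e : ℕ} {F : Polynomial O} (hF : GoodPoly haux hA hO T (normT y) e F)
    (hh : GoodPoly haux hA hO T (hasseL haux hM hA hζ) eh Fh) {j : ℕ} (hj : j ≤ q)
    (hz : T.D.conjL haux y - y = constL T.π ^ j * z) (i : ℕ) :
    ∃ c : O, (polT y z).coeff i - constL c * normT y ∈ pInf hO := by
  classical
  have := hO'.complete
  have hzx : ∀ x : CosetT q M,
      T.D.conjL haux (transT x y) - transT x y = constL T.π ^ j * transT x z := fun x => by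
    simp only [transT, conjL_actL haux T, ← map_sub, hz, map_mul, map_pow, actL_constL]
  have hzero' : ∀ x : CosetT q M, UnitZero P (transT x y) := fun x γ hγ => by
    simp only [transT, serAt_actL]
    exact hy' _ fun h => hγ (by simpa using mul_mem (inv_mem (outT_mem x)) h)
  obtain ⟨γ, hγ, -, hB⟩ := exists_cuspPlaces haux hA hO hM hO'
  -- the step at a cusp
  have hcuspR : ∀ i : Fin 3, ∀ x : CosetT q M, resInf (γ i) (hγ i) (transT x y) ≠ 0 ∧
      ∃ R : PowerSeries (ResidueField O), resInf (γ i) (hγ i) (transT x z) =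
        HahnSeries.ofPowerSeries ℤ _ R * resInf (γ i) (hγ i) (transT x y) := fun i x => by
    have hne : resInf (γ i) (hγ i) (transT x y) ≠ 0 := fun h0 =>
      ((resInf_eq_zero_iff hO' (γ i) (hγ i) _).mp h0).not_unitCoeff
        (actL_unitInf (outT_mem x) hy (γ i) (hγ i))
    refine ⟨hne, exists_ofPS_mul hne ?_⟩
    exact (T.cusp_step haux hA hq2 (divisible_actL (outT_mem x) hdiv) (hγ i) hne (by
      simp only [infSer_actL]; exact hord _ _) hj (hzx x)).2
  choose hne RC hRC using hcuspR
  obtain ⟨e', G, hG⟩ := exists_hasPoly haux hA hO hM fun δ hδ => act_coeff_polT y z hδ i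
  rcases eq_or_ne (G.map (residue O)) 0 with hG0 | hG0
  · exact ⟨0, by simpa using hG.mem_pInf haux hA hO hO' hG0⟩
  have hcusp : ∀ l : Fin 3, resInf (γ l) (hγ l) ((polT y z).coeff i) ≠ 0 →
      (resInf (γ l) (hγ l) (normT y)).order ≤
        (resInf (γ l) (hγ l) ((polT y z).coeff i)).order := by
    intro l hl
    have h1 := map_coeff_polT (resInf (γ l) (hγ l))
      (R := fun x => HahnSeries.ofPowerSeries ℤ _ (RC l x)) (hRC l) i
    rw [h1] at hl ⊢
    rw [HahnSeries.order_mul (left_ne_zero_of_mul hl) (right_ne_zero_of_mul hl)]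
    have hnn : 0 ≤ ((∏ x : CosetT q M, (Polynomial.X - Polynomial.C
        (HahnSeries.ofPowerSeries ℤ (ResidueField O) (RC l x)))).coeff i).order := by
      set Q := ∏ x : CosetT q M, (Polynomial.X - Polynomial.C (RC l x)) with hQ
      rw [show (∏ x : CosetT q M, (Polynomial.X - Polynomial.C
          (HahnSeries.ofPowerSeries ℤ (ResidueField O) (RC l x)))) =
        Q.map (HahnSeries.ofPowerSeries ℤ _) by simp [hQ, Polynomial.map_prod],
        Polynomial.coeff_map]
      rcases eq_or_ne (Q.coeff i) 0 with h0 | h0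
      · rw [h0, map_zero, HahnSeries.order_zero]
      · rw [order_toNat_ofPS h0]; positivity
    omega
  obtain ⟨y2, oy2⟩ := hB.order_zero haux hA hO hF.hasPoly hF.ne_zero
  obtain ⟨y0, oy0⟩ := hB.order_one haux hA hO hF.hasPoly hF.ne_zero
  obtain ⟨y1, oy1⟩ := hB.order_top haux hA hO hF.hasPoly hF.ne_zero
  obtain ⟨z2, oz2⟩ := hB.order_zero haux hA hO hG hG0
  obtain ⟨z0, oz0⟩ := hB.order_one haux hA hO hG hG0
  obtain ⟨z1, oz1⟩ := hB.order_top haux hA hO hG hG0
  have hd := hB.pos
  have c2 := hcusp 2 z2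
  have c0 := hcusp 0 z0
  have c1 := hcusp 1 z1
  rw [oy2, oz2] at c2
  rw [oy0, oz0] at c0
  rw [oy1, oz1] at c1
  refine exists_const_of_mlt haux hA hO hO' T hF hG hG0 (by nlinarith) fun a => ?_
  by_cases h0 : a = 0
  · subst h0; exact le_of_mul_le_mul_left c2 hd
  by_cases h1 : a = 1
  · subst h1; exact le_of_mul_le_mul_left c0 hd
  by_cases hr : (F.map (residue O)).IsRoot a
  · obtain ⟨τ0, hg, hres, hfix⟩ := hF.good a hr h0 h1
    rw [← hres]
    have hR : ∀ x : CosetT q M, ∃ R : PowerSeries (ResidueField O),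
        pointHom haux hA hO' hM hg (transT x z) =
          R * pointHom haux hA hO' hM hg (transT x y) := fun x =>
      pointHom_step haux hA hO hO' hM hζ hq2 T hh hg hfix (actL_unitInf (outT_mem x) hy)
        (hzero' x) (divisible_actL (outT_mem x) hdiv) hj (hzx x)
    choose R hR using hR
    refine le_mlt_of_dvd haux hA hO (β := pointHom haux hA hO' hM hg)
      (pointHom_constL haux hA hO' hM hg) (fun f hf => pointHom_eq_zero haux hA hO' hM hg hf) hg
      isUnit_one one_pos (by rw [pow_one, mul_one]; exact pointHom_tPar haux hA hO' hM hg)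
      hF.hasPoly hF.ne_zero hG hG0 ?_
    rw [map_coeff_polT (pointHom haux hA hO' hM hg) hR i]
    exact PowerSeries.X_pow_order_dvd.mul_right _
  · rw [mlt_eq_of_ne e h0 h1, mlt_eq_of_ne e' h0 h1, Polynomial.rootMultiplicity_eq_zero hr]
    positivity

include hO' hζ hq2 in
/-- **The quotient is a constant multiple of `y` on the component at `∞`.** -/
theorem exists_constM (hy : UnitInf P y) (hy' : UnitZero P y)
    (hdiv : Divisible q M O q (y : ℍ → ℂ))
    (hord : ∀ (γ : SL(2, ℤ)) (hγ : γ ∈ Gamma0 q), (q : ℤ) ∣ (infSer γ hγ y).order)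
    {e : ℕ} {F : Polynomial O} (hF : GoodPoly haux hA hO T (normT y) e F)
    (hh : GoodPoly haux hA hO T (hasseL haux hM hA hζ) eh Fh) {j : ℕ} (hj : j ≤ q)
    (hz : T.D.conjL haux y - y = constL T.π ^ j * z) :
    ∃ c : O, z - constL c * y ∈ pInf hO := by
  classical
  have := hO'.complete
  choose c hc using exists_const_coeff_polT haux hA hO hO' hM hζ hq2 T hy hy' hdiv hord hF hh hj hz
  -- the quotient at `∞` is algebraic over the residue field
  set β := resInf (M := M) (O := O) 1 (one_mem (Gamma0 q))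
  have hβ : ∀ f ∈ pInf hO, β f = 0 := (isPlace_resInf hO hO' (one_mem (Gamma0 q))).inf
  have hny : ∀ x : CosetT q M, β (transT x y) ≠ 0 := fun x h0 =>
    ((resInf_eq_zero_iff hO' 1 (one_mem _) _).mp h0).not_unitCoeff
      (actL_unitInf (outT_mem x) hy 1 (one_mem _))
  set N := Fintype.card (CosetT q M)
  set Pc : Polynomial (ResidueField O) :=
    ∑ i ∈ Finset.range (N + 1), Polynomial.monomial i (residue O (c i))
  set R := β z / β y with hRdef
  have hy0 : β y ≠ 0 := by have := hny ((1 : lam q 2) : CosetT q M); rwa [transT_one] at this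
  have hnorm : β (normT y) ≠ 0 := by
    rw [normT, map_prod]
    exact Finset.prod_ne_zero_iff.mpr fun x _ => hny x
  have hdeg : (polT y z).natDegree < N + 1 := by
    refine Nat.lt_succ_of_le ((Polynomial.natDegree_prod_le _ _).trans
      ((Finset.sum_le_card_nsmul _ _ 1 fun x _ => ?_).trans (by simp [N])))
    refine (Polynomial.natDegree_sub_le _ _).trans (max_le ?_ ?_)
    · exact (Polynomial.natDegree_C_mul_le _ _).trans Polynomial.natDegree_X_le
    · simp
  have heval : Pc.eval₂ HahnSeries.C R = 0 := by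
    refine mul_left_cancel₀ hnorm ?_
    rw [mul_zero]
    have h1 : (polT y z).eval₂ β R = 0 := by
      rw [polT, Polynomial.eval₂_finsetProd]
      refine Finset.prod_eq_zero (Finset.mem_univ ((1 : lam q 2) : CosetT q M)) ?_
      simp only [Polynomial.eval₂_sub, Polynomial.eval₂_mul, Polynomial.eval₂_C, Polynomial.eval₂_X,
        transT_one]
      rw [hRdef, mul_div_cancel₀ _ hy0, sub_self]
    rw [← h1, Polynomial.eval₂_eq_sum_range' β hdeg, Polynomial.eval₂_finsetSum, Finset.mul_sum]
    refine Finset.sum_congr rfl fun i _ => ?_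
    have h2 := hβ _ (hc i)
    rw [map_sub, map_mul, sub_eq_zero, resInf_constL] at h2
    rw [Polynomial.eval₂_monomial, h2]
    ring
  have hPc : Pc ≠ 0 := fun h0 => by
    have h2 := congrArg (fun p => Polynomial.coeff p N) h0
    simp only [Pc, Polynomial.finsetSum_coeff, Polynomial.coeff_monomial,
      Polynomial.coeff_zero] at h2
    rw [Finset.sum_ite_eq_of_mem' _ _ _ (Finset.mem_range.mpr (Nat.lt_succ_self N))] at h2
    have h3 := hβ _ (hc N)
    rw [map_sub, map_mul, coeff_top_polT, resInf_constL, h2, map_zero, zero_mul, sub_zero] at h3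
    exact hnorm h3
  obtain ⟨c1, hc1⟩ := residue_surjective (R := O) (R.coeff 0)
  refine ⟨c1, (mem_pInf_or_unitInf haux hA hO hM hζ hq2 _).resolve_right fun hu => ?_⟩
  refine (((resInf_eq_zero_iff hO' 1 (one_mem _) _).mp ?_)).not_unitCoeff (hu 1 (one_mem _))
  have hR' := eq_C_of_root hPc heval
  show β _ = 0
  rw [map_sub, map_mul, resInf_constL, hc1, ← hR', hRdef, div_mul_cancel₀ _ hy0, sub_self]

end FermatAgent.BAD.AtP
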