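import Fermat.Agent.BAD.AtP.Geo.Const

/-!
# The crossing points at level `M`

The orders of an adapted function at the crossing points are congruent modulo `q`.
-/

set_option autoImplicit false

open UpperHalfPlane CongruenceSubgroup IsLocalRing
open scoped MatrixGroups

noncomputable section

namespace FermatAgent.BAD.AtP

open FermatAgent.BAD.TwoP
open FermatAgent.ES (BRing act zetaC AuxLevel CPlace GoodRoot GoodPoint liftSer)

variable {q M : ℕ} [hqp : Fact q.Prime] [NeZero M] {O : Subring ℂ} (haux : AuxLevel M 2)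
  (hA : GoodRoot M O (zetaC M)) {P : CPlace q} (hO : O ≤ P.ring) (hO' : P.IsCDVR O)
  (hM : M.Coprime q) (hζ : zetaC (q * M) ∈ O) (hq2 : q ≠ 2) (T : TauData q M P O)
  [IsDiscreteValuationRing O]

/-- A crossing point of the two components. -/
structure NodeM (𝔪 : Ideal (LRing q M O)) : Prop where
  isMax : 𝔪.IsMaximal
  inf : pInf hO ≤ 𝔪
  zero : pZero hO ≤ 𝔪

section

omit [IsDiscreteValuationRing ↥O]

include hζ hM in
/-- The transforms of a crossing point are crossing points. -/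
theorem NodeM.comap {𝔪 : Ideal (LRing q M O)} (h : NodeM hO 𝔪) :
    NodeM hO (𝔪.comap (atkinEquiv hM hζ).toRingHom) ∧
      NodeM hO (𝔪.comap (atkinEquiv hM hζ).symm.toRingHom) := by
  have := h.isMax
  exact ⟨⟨Ideal.comap_isMaximal_of_surjective _ (atkinEquiv hM hζ).surjective,
      fun f hf => h.zero (atkinL_mem_pZero hO hM hζ hf),
      fun f hf => h.inf (atkinL_mem_pInf hO hM hζ hf)⟩,
    ⟨Ideal.comap_isMaximal_of_surjective _ (atkinEquiv hM hζ).symm.surjective,
      fun f hf => h.zero (atkinSymm_mem_pZero hO hM hζ hf),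
      fun f hf => h.inf (atkinSymm_mem_pInf hO hM hζ hf)⟩⟩

/-- Unit coefficients on both components, with multiplicities divisible by `q`. -/
structure AdaptedM (y : LRing q M O) : Prop where
  unitInf : UnitInf P y
  unitZero : UnitZero P y
  div : Divisible q M O q (y : ℍ → ℂ)
  ord : ∀ (γ : SL(2, ℤ)) (hγ : γ ∈ Gamma0 q), (q : ℤ) ∣ (infSer γ hγ y).order

include hO in
/-- A unit multiple of an adapted function is adapted. -/
theorem AdaptedM.const_mul (hO' : P.IsCDVR O) {y : LRing q M O} (hy : AdaptedM (P := P) y)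
    (u : Oˣ) : AdaptedM (P := P) (constL (u : O) * y) := by
  have := hO'.dvr
  have habs : P.abv ((u : O) : ℂ) = 1 := by
    refine le_antisymm (hO (u : O).2) (not_lt.mp fun h => ?_)
    exact (mem_maximalIdeal _).mp ((hO'.mem_maximalIdeal_iff _).mpr h) u.isUnit
  have hunit : ∀ γ, P.UnitCoeff (serAt M O q γ y) →
      P.UnitCoeff (serAt M O q γ (constL (u : O) * y)) := by
    rintro γ ⟨n, hn⟩
    refine ⟨n, ?_⟩
    rw [map_mul, serAt_constL, HahnSeries.C_apply, HahnSeries.coeff_single_zero_mul, map_mul,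
      habs, hn, one_mul]
  refine ⟨fun γ hγ => hunit γ (hy.unitInf γ hγ),
    fun γ hγ => hunit γ (hy.unitZero γ hγ), fun τ hτ => ?_, fun γ hγ => ?_⟩
  · have hu : ((u : O) : ℂ) ≠ 0 := fun h0 => by simp [h0] at habs
    obtain ⟨i, E, D, X, hE, hX, heq⟩ := hy.div τ ((mul_eq_zero.mp hτ).resolve_left hu)
    refine ⟨i, E, D, constL (u : O) * X, hE, mul_ne_zero hu hX, ?_⟩
    show ((constL (u : O) : LRing q M O) : ℍ → ℂ) * (y : ℍ → ℂ) * (E : ℍ → ℂ) =
      (D : ℍ → ℂ) ^ (q * i) * (((constL (u : O) : LRing q M O) : ℍ → ℂ) * (X : ℍ → ℂ))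
    rw [mul_assoc, heq]
    ring
  · rw [map_mul, infSer_constL]
    rcases eq_or_ne (infSer γ hγ y) 0 with h | h
    · rw [h, mul_zero, HahnSeries.order_zero]; exact dvd_zero _
    rw [HahnSeries.order_mul (fun h0 => u.isUnit.ne_zero (by
      simpa using congrArg (fun s : LaurentSeries O => s.coeff 0) h0)) h, HahnSeries.order_C,
      zero_add]
    exact hy.ord γ hγ

include hO' in
/-- A function with unit coefficients on the component at `∞` has a unit coefficient at `∞`. -/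
theorem exists_unit_coeff {y : LRing q M O} (hy : UnitInf P y) :
    ∃ n : ℤ, IsUnit ((infSer 1 (one_mem (Gamma0 q)) y).coeff n) := by
  have := hO'.dvr
  obtain ⟨n, hn⟩ := hy 1 (one_mem (Gamma0 q))
  by_cases hd : (q : ℤ) ∣ n
  · obtain ⟨i, rfl⟩ := hd
    refine ⟨i, ?_⟩
    by_contra hu
    have h := (hO'.mem_maximalIdeal_iff _).mp ((mem_maximalIdeal _).mpr hu)
    rw [coeff_infSer, hn] at h
    exact lt_irrefl _ h
  · rw [serAt_apply, coeff_eq_zero_of_not_dvd_type y.2.2 (one_mem (Gamma0 q)) hd, map_zero] at hn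
    exact absurd hn zero_ne_one

theorem normT_constL_mul (u : O) (y : LRing q M O) :
    normT (constL u * y) = constL (u ^ Fintype.card (CosetT q M)) * normT y := by
  simp only [normT, map_mul, transT, actL_constL, Finset.prod_mul_distrib, Finset.prod_const,
    map_pow, Finset.card_univ]

end

theorem GoodPoly.normT_constL_mul {y : LRing q M O} {e : ℕ} {F : Polynomial O}
    (h : GoodPoly haux hA hO T (normT y) e F) (u : Oˣ) :
    ∃ G, GoodPoly haux hA hO T (normT (constL (u : O) * y)) e G :=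
  ⟨_, by
    rw [AtP.normT_constL_mul, ← Units.val_pow_eq_pow_val]
    exact h.const_mul haux hA hO T _⟩

omit [IsDiscreteValuationRing ↥O] in
/-- A unit multiple has the same order at a point. -/
theorem OrdAt.const_mul {𝔪 : Ideal (LRing q M O)} [h𝔪 : 𝔪.IsMaximal] {τ0 : ℍ}
    {hg : GoodPoint haux O τ0} {f : LRing q M O} {i : ℕ}
    (h : OrdAt haux hA hO 𝔪 hg f i) (u : Oˣ) :
    OrdAt haux hA hO 𝔪 hg (constL (u : O) * f) i := by
  obtain ⟨e, v, he, hv, hrel⟩ := h
  refine ⟨e, ⟨_, ES.const_mem_BRing (u : O).2⟩ * v, he, fun hmem => ?_, ?_⟩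
  · rw [map_mul] at hmem
    rcases h𝔪.isPrime.mem_or_mem hmem with h | h
    · exact h𝔪.ne_top (Ideal.eq_top_of_isUnit_mem _ h (u.isUnit.map constL))
    · exact hv h
  · have h1 := Ideal.mul_mem_left _ (constL (u : O)) hrel
    convert h1 using 1
    rw [← mul_assoc _ _ v, mul_comm (tPar haux hA hg ^ i), mul_assoc, map_mul,
      show raiseL M (⟨_, ES.const_mem_BRing (u : O).2⟩ : BRing M O) =
        (constL (u : O) : LRing q M O) from rfl]
    ring

variable {y : LRing q M O} {e e1 eh : ℕ} {F F1 Fh : Polynomial O}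

include hO' hζ hq2 in
theorem quot_stepM (hy : AdaptedM (P := P) y) (hy1 : AdaptedM (P := P) (atkinEquiv hM hζ y))
    (hfix : FixedUnit T y) (hF : GoodPoly haux hA hO T (normT y) e F)
    (hF1 : GoodPoly haux hA hO T (normT (atkinEquiv hM hζ y)) e1 F1)
    (hh : GoodPoly haux hA hO T (hasseL haux hM hA hζ) eh Fh) {j : ℕ} (hj : j ≤ q)
    {z : LRing q M O} (hz : T.D.conjL haux y - y = constL T.π ^ j * z) :
    z ∈ pInf hO ∧ ∃ c0 : O, atkinEquiv hM hζ z - constL c0 * atkinEquiv hM hζ y ∈ pInf hO ∧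
      ∀ (𝔪 : Ideal (LRing q M O)), NodeM hO 𝔪 → ∀ (τ1 : ℍ) (hg' : GoodPoint haux O τ1),
        (atkinEquiv hM hζ).symm (raiseL M (tPar haux hA hg')) ∈ 𝔪 → ∀ i1 : ℕ,
        OrdAt haux hA hO (𝔪.comap (atkinEquiv hM hζ).symm.toRingHom) hg'
          (atkinEquiv hM hζ y) i1 →
        (j < q → residue O c0 = 0) ∧
          (j = q → residue O c0 = (-residue O T.η * (i1 : ResidueField O)) ^ q) := by
  obtain ⟨c, hc⟩ := exists_constM haux hA hO hO' hM hζ hq2 T hy.unitInf hy.unitZero hy.div hy.ord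
    hF hh hj hz
  obtain ⟨n, hu, hn⟩ := hfix
  have hγ1 := one_mem (Gamma0 q)
  have hzn : (infSer 1 hγ1 z).coeff n = 0 := by
    have h1 := congrArg (fun f : LRing q M O => (infSer 1 hγ1 f).coeff n) hz
    simp only [map_sub, T.infSer_conjL haux y hγ1, map_mul, map_pow, infSer_constL,
      HahnSeries.coeff_sub, ES.coeff_liftSer, hn, sub_self] at h1
    rw [← map_pow, HahnSeries.C_apply, HahnSeries.coeff_single_zero_mul] at h1
    exact (mul_eq_zero.mp h1.symm).resolve_left (pow_ne_zero j T.irr.ne_zero)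
  have hcres : residue O c = 0 := by
    have h1 := congrArg (fun s : LaurentSeries (ResidueField O) => s.coeff n)
      ((isPlace_resInf hO hO' hγ1).inf _ hc)
    simp only [map_sub, map_mul, resInf_constL, HahnSeries.coeff_sub, HahnSeries.C_apply,
      HahnSeries.coeff_single_zero_mul, HahnSeries.coeff_zero] at h1
    simp only [resInf, RingHom.comp_apply, ES.coeff_liftSer, hzn, map_zero, zero_sub,
      neg_eq_zero, mul_eq_zero] at h1
    exact h1.resolve_right (hu.map _).ne_zero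
  have hzinf : z ∈ pInf hO := by
    have h := add_mem hc (Ideal.mul_mem_right y _ (constL_mem_pInf (q := q) (M := M) hO hO' hcres))
    simpa using h
  obtain ⟨c0, hc0⟩ := exists_constM haux hA hO hO' hM hζ hq2 T (y := atkinEquiv hM hζ y)
    (z := atkinEquiv hM hζ z) hy1.unitInf hy1.unitZero hy1.div hy1.ord hF1 hh hj (by
      rw [T.conjL_atkinEquiv haux hM hζ, ← map_sub, hz, map_mul, map_pow,
        atkinEquiv_constL hM hζ])
  refine ⟨hzinf, c0, hc0, fun 𝔪 h𝔪 τ1 hg' ht' i1 hi1 => ?_⟩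
  have := h𝔪.isMax
  obtain ⟨τ0, hg, ht, -⟩ := exists_value haux hA hO hO' hM hζ T hh h𝔪.inf h𝔪.zero
  obtain ⟨i, hi⟩ := exists_ordAt haux hA hO hO' hM hζ hq2 hg h𝔪.inf ht hy.unitInf
  obtain ⟨h1, h2⟩ := (node_ord haux hA hO hO' hM hζ hq2 T h𝔪.inf h𝔪.zero hg ht hg' ht' hy.div hi
    hi1 hj hz).2 0 c0 (by simpa using hzinf) hc0
  exact ⟨fun h => by rw [h1 h, map_zero], fun h => by rw [h2 h, map_zero, zero_add]⟩

include hO' hζ hq2 in
/-- The automorphism moves an adapted function by a multiple of `π ^ j` for `j ≤ q`. -/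
theorem exists_quotM (hy : AdaptedM (P := P) y) (hy1 : AdaptedM (P := P) (atkinEquiv hM hζ y))
    (hfix : FixedUnit T y) (hF : GoodPoly haux hA hO T (normT y) e F)
    (hF1 : GoodPoly haux hA hO T (normT (atkinEquiv hM hζ y)) e1 F1)
    (hh : GoodPoly haux hA hO T (hasseL haux hM hA hζ) eh Fh)
    {𝔪 : Ideal (LRing q M O)} (h𝔪 : NodeM hO 𝔪) :
    ∀ j ≤ q, ∃ z : LRing q M O, T.D.conjL haux y - y = constL T.π ^ j * z := by
  have := (h𝔪.comap hO hM hζ).2.isMax
  obtain ⟨τ1, hg', ht', -⟩ := exists_value haux hA hO hO' hM hζ T hh (h𝔪.comap hO hM hζ).2.inf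
    (h𝔪.comap hO hM hζ).2.zero
  obtain ⟨i1, hi1⟩ := exists_ordAt haux hA hO hO' hM hζ hq2 hg' (h𝔪.comap hO hM hζ).2.inf ht'
    hy1.unitInf
  intro j
  induction j with
  | zero => exact fun _ => ⟨T.D.conjL haux y - y, by rw [pow_zero, one_mul]⟩
  | succ j ih =>
    intro hj
    obtain ⟨z, hz⟩ := ih (by omega)
    obtain ⟨hzinf, c0, hc0, hnode⟩ :=
      quot_stepM haux hA hO hO' hM hζ hq2 T hy hy1 hfix hF hF1 hh (by omega) hz
    have hc0' : residue O c0 = 0 := (hnode 𝔪 h𝔪 τ1 hg' ht' i1 hi1).1 (by omega)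
    have hez : atkinEquiv hM hζ z ∈ pInf hO := by
      have h := add_mem hc0
        (Ideal.mul_mem_right (atkinEquiv hM hζ y) _ (constL_mem_pInf hO hO' hc0'))
      simpa using h
    obtain ⟨w, hw⟩ := dvd_of_mem_pInf_pZero hO hO' T.irr hzinf
      (mem_pZero_of_atkinL hO hM hζ hez)
    exact ⟨w, by rw [hz, hw, pow_succ]; ring⟩

include hO' hζ hq2 in
/-- **The orders at the crossing points are congruent modulo `q`.** -/
theorem ordAt_node_congr {y0 : LRing q M O} (hy0 : AdaptedM (P := P) y0)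
    (hy1 : AdaptedM (P := P) ((atkinEquiv hM hζ).symm y0))
    (hF0 : GoodPoly haux hA hO T (normT y0) e F)
    (hF1 : GoodPoly haux hA hO T (normT ((atkinEquiv hM hζ).symm y0)) e1 F1)
    (hh : GoodPoly haux hA hO T (hasseL haux hM hA hζ) eh Fh)
    {𝔪 𝔪' : Ideal (LRing q M O)} (h𝔪 : NodeM hO 𝔪) (h𝔪' : NodeM hO 𝔪') {τ τ' : ℍ}
    {hg : GoodPoint haux O τ} {hg' : GoodPoint haux O τ'}
    (ht : raiseL M (tPar haux hA hg) ∈ 𝔪) (ht' : raiseL M (tPar haux hA hg') ∈ 𝔪') {i i' : ℕ}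
    (hi : OrdAt haux hA hO 𝔪 hg y0 i) (hi' : OrdAt haux hA hO 𝔪' hg' y0 i') :
    (q : ℤ) ∣ (i : ℤ) - i' := by
  have := charP_residueField T
  have := h𝔪.isMax
  have := h𝔪'.isMax
  set eA := atkinEquiv (O := O) hM hζ
  obtain ⟨n, hn⟩ := exists_unit_coeff hO' hy1.unitInf
  set u : Oˣ := hn.unit⁻¹
  set y := constL (u : O) * eA.symm y0
  have e2 : eA y = constL (u : O) * y0 := by
    rw [map_mul, atkinEquiv_constL hM hζ, eA.apply_symm_apply]
  have hfix : FixedUnit T y := by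
    refine ⟨n, ?_, ?_⟩ <;> rw [map_mul, infSer_constL, HahnSeries.C_apply,
      HahnSeries.coeff_single_zero_mul, IsUnit.val_inv_mul]
    · exact isUnit_one
    · exact map_one _
  have hyA : AdaptedM (P := P) y := hy1.const_mul hO hO' u
  have hyA' : AdaptedM (P := P) (eA y) := e2.symm ▸ hy0.const_mul hO hO' u
  obtain ⟨G1, hG1⟩ := GoodPoly.normT_constL_mul haux hA hO T hF1 u
  obtain ⟨G0, hG0⟩ := GoodPoly.normT_constL_mul haux hA hO T hF0 u
  rw [← e2] at hG0
  obtain ⟨z, hz⟩ := exists_quotM haux hA hO hO' hM hζ hq2 T hyA hyA' hfix hG1 hG0 hh h𝔪 q le_rfl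
  obtain ⟨-, c0, -, hnode⟩ :=
    quot_stepM haux hA hO hO' hM hζ hq2 T hyA hyA' hfix hG1 hG0 hh le_rfl hz
  have key : ∀ {𝔫 : Ideal (LRing q M O)} [𝔫.IsMaximal] (_ : NodeM hO 𝔫) {σ : ℍ}
      {hσ : GoodPoint haux O σ} (_ : raiseL M (tPar haux hA hσ) ∈ 𝔫) {l : ℕ}
      (_ : OrdAt haux hA hO 𝔫 hσ y0 l),
      residue O c0 = (-residue O T.η * (l : ResidueField O)) ^ q := by
    intro 𝔫 _ h𝔫 σ hσ htσ l hl
    have hback : (𝔫.comap eA.toRingHom).comap eA.symm.toRingHom = 𝔫 := by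
      ext f
      show eA (eA.symm f) ∈ 𝔫 ↔ _
      rw [eA.apply_symm_apply]
    refine (hnode _ (h𝔫.comap hO hM hζ).1 σ hσ
      (show eA (eA.symm _) ∈ 𝔫 by rwa [eA.apply_symm_apply]) l ?_).2 rfl
    rw [hback, e2]
    exact hl.const_mul haux hA hO u
  have h := (key h𝔪 ht hi).symm.trans (key h𝔪' ht' hi')
  have h2 : (i : ResidueField O) = (i' : ResidueField O) :=
    mul_left_cancel₀ (neg_ne_zero.mpr (T.isUnit_η.map (residue O)).ne_zero)
      (frobenius_inj (ResidueField O) q h)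
  rw [← CharP.intCast_eq_zero_iff (ResidueField O) q]
  push_cast
  rw [h2, sub_self]

end FermatAgent.BAD.AtP
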