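import Fermat.Agent.BAD.AtP.Geo.Point

/-!
# Normalisation at level `M`

At a crossing point a `q`-th power is normalised by an invariant factor to be a unit on both
components, changing it only by a power of `hasseL` on the component at `∞`.
-/

set_option autoImplicit false

open UpperHalfPlane CongruenceSubgroup IsLocalRing
open scoped MatrixGroups

noncomputable section

namespace FermatAgent.BAD.AtP

open FermatAgent.BAD.TwoP
open FermatAgent.ES (act zetaC AuxLevel CPlace GoodRoot GoodPoint)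

variable {q M : ℕ} [hqp : Fact q.Prime] [NeZero M] {O : Subring ℂ} (haux : AuxLevel M 2)
  (hA : GoodRoot M O (zetaC M)) {P : CPlace q} (hO : O ≤ P.ring) (hO' : P.IsCDVR O)
  (hM : M.Coprime q) (hζ : zetaC (q * M) ∈ O) (hq2 : q ≠ 2) (T : TauData q M P O)
  [IsDiscreteValuationRing O]

include hO' hq2 in
/-- **The content on the component at `0` is divisible by `q`.** -/
theorem content_dvdM {y0 y1 : LRing q M O}
    (hy0 : UnitInf P y0) (hdiv : Divisible q M O q (y0 : ℍ → ℂ)) (hy1 : UnitZero P y1) {j0 : ℕ}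
    (heq : atkinEquiv hM hζ (hasseL haux hM hA hζ) ^ j0 * y0 = constL (T.π ^ j0) * y1)
    {𝔪 : Ideal (LRing q M O)} [h𝔪 : 𝔪.IsMaximal] (hinf : pInf hO ≤ 𝔪) (hzero : pZero hO ≤ 𝔪)
    {τ0 τ1 : ℍ} (hg : GoodPoint haux O τ0) (ht : raiseL M (tPar haux hA hg) ∈ 𝔪)
    (hg' : GoodPoint haux O τ1)
    (ht' : (atkinEquiv hM hζ).symm (raiseL M (tPar haux hA hg')) ∈ 𝔪) : q ∣ j0 := by
  have := noetherian_LRing (q := q) haux hA hζ
  have := hO'.complete
  have := node_isDomain T.irr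
  have := node_ufm T.irr
  obtain ⟨Φ, hΦC, hΦτ, hΦ0, hΦ1, ⟨w0, hw0, hwt0⟩, hΦu, w1, hw1, hwt1⟩ :=
    exists_nodeChartU haux hA hO hO' hM hζ hq2 T hinf hzero hg ht hg' ht'
  obtain ⟨i0, hi0⟩ := exists_ordAt haux hA hO hO' hM hζ hq2 hg hinf ht hy0
  have hne : ∀ {f : LRing q M O}, _ := fun {f} =>
    branch_ne_zero haux hA hO hO' hM hζ hq2 T (f := f) hinf hzero hg ht hg' ht' hΦ0 hΦ1 hΦu hw0 hw1
      hwt0 hwt1
  set b := branch (unif_mem T.irr)
  set E := q * (q - 1) with hEdef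
  have hE : 0 < E := Nat.mul_pos hqp.out.pos (Nat.sub_pos_of_lt hqp.out.one_lt)
  set eA := atkinEquiv (O := O) hM hζ
  set H := hasseL haux hM hA hζ
  obtain ⟨hb0, ho⟩ := hi0.order_eq haux hA hO (β := (b 0).comp Φ) hΦ0
    (fun f (hf : f ∉ 𝔪) => (hΦu f hf).map (b 0)) hw0 hwt0
  change b 0 (Φ y0) ≠ 0 at hb0
  change (b 0 (Φ y0)).order = _ at ho
  have hb1 : b 1 (Φ y1) ≠ 0 := hne.2 (atkinL_unitInf hM hζ hy1)
  have hH1 : UnitInf P H := hasseL_unitInf haux hM hA hζ hO hq2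
  have hh0 : b 0 (Φ H) ≠ 0 := hne.1 hH1
  have hh1 : b 1 (Φ (eA H)) ≠ 0 := hne.2 (by
    rw [atkinEquiv_sq haux hM hζ hq2 fun δ hδ => act_hasseL haux hA hM hζ hq2 hδ]
    exact hH1)
  set x := nodeVar T.π 0
  set x' := nodeVar T.π 1
  obtain ⟨-, R', -, hR'u, -, hR'⟩ := node_split T.irr (A := Φ H) (B := Φ (eA H))
    (u := nodeC T.π ((T.a1 : O) ^ 2)) ((T.a1.isUnit.pow 2).map _) (a := 2 * E) (b := 2 * E) (by
      rw [← map_mul, hasseL_mul_atkin haux hA hM hζ hq2, hΦC, T.q_eq, mul_pow, ← pow_mul,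
        map_mul, map_pow (nodeC T.π) T.π, ← nodeVar_mul, mul_pow, hEdef, mul_comm 2]) hh0 hh1
  have hx : Prime x := prime_nodeVar_zero T.irr
  have hx' : Prime x' := prime_nodeVar_one T.irr
  -- the relation on the node
  have hrel : x' ^ ((2 * E - 1) * j0) * R' ^ j0 * Φ y0 = x ^ j0 * Φ y1 := by
    have h1 := congrArg Φ heq
    rw [map_mul, map_mul, map_pow, hR', hΦC, map_pow, ← nodeVar_mul] at h1
    refine mul_left_cancel₀ (pow_ne_zero j0 hx'.ne_zero) ?_
    calc x' ^ j0 * (x' ^ ((2 * E - 1) * j0) * R' ^ j0 * Φ y0)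
        = (x' ^ (2 * E) * R') ^ j0 * Φ y0 := by
          rw [mul_pow, ← pow_mul, ← mul_assoc, ← mul_assoc, ← pow_add,
            show j0 + (2 * E - 1) * j0 = 2 * E * j0 by
              nth_rewrite 1 [← one_mul j0]
              rw [← add_mul, Nat.add_sub_cancel' (by omega)]]
      _ = (x * x') ^ j0 * Φ y1 := h1
      _ = x' ^ j0 * (x ^ j0 * Φ y1) := by rw [mul_pow]; ring
  obtain ⟨G, hG⟩ : x ^ j0 ∣ Φ y0 := by
    refine hx.pow_dvd_of_dvd_mul_left j0 (a := x' ^ ((2 * E - 1) * j0) * R' ^ j0) (fun hd => ?_)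
      ⟨Φ y1, hrel⟩
    rcases hx.dvd_or_dvd hd with hd | hd
    · obtain ⟨v, hv⟩ := hx.dvd_of_dvd_pow hd
      have := congrArg (b 1) hv
      rw [map_mul, branch_nodeVar, branch_nodeVar, if_pos rfl, if_neg (by decide), zero_mul]
        at this
      exact PowerSeries.X_ne_zero this
    · exact hx.not_isUnit (isUnit_of_dvd_unit (hx.dvd_of_dvd_pow hd) hR'u)
  have hG1 : x' ^ ((2 * E - 1) * j0) * R' ^ j0 * G = Φ y1 := by
    refine mul_left_cancel₀ (pow_ne_zero j0 hx.ne_zero) ?_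
    rw [← hrel, hG]
    ring
  have hGbr : ∀ i, b i G ≠ 0 := Fin.forall_fin_two.mpr
    ⟨fun h => hb0 (by rw [hG, map_mul, h, mul_zero]),
      fun h => hb1 (by rw [← hG1, map_mul, h, mul_zero])⟩
  obtain ⟨U, K, hUK⟩ : ∃ (U : (Node O T.π)ˣ) (K : Node O T.π), G = U * K ^ q := by
    refine exists_node_factor_of_witness T.irr O.subtype O.subtype_injective hGbr fun ψ hψ h0 => ?_
    obtain ⟨i, d, e, g, he, hg', hD⟩ := exists_witness_of_divisible haux hA hdiv Φ ψ
      (fun r => by rw [hΦC, hψ]; rfl) (by rw [hG, map_mul, h0, mul_zero])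
    refine ⟨i, d, x ^ j0 * e, g, ?_, hg', by rw [← hD, hG]; ring⟩
    rw [map_mul, map_pow]
    refine mul_ne_zero (pow_ne_zero _ fun hx0 => ?_) he
    refine T.irr.ne_zero (O.subtype_injective ?_)
    rw [map_zero, ← hψ, ← nodeVar_mul, map_mul, show ψ (nodeVar T.π 0) = 0 from hx0, zero_mul]
  have hK : b 0 K ≠ 0 := fun h => hGbr 0 (by
    rw [hUK, map_mul, map_pow, h, zero_pow hqp.out.ne_zero, mul_zero])
  have hord : (b 0 (Φ y0)).order.toNat = j0 + q * (b 0 K).order.toNat := by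
    have hkey := (X_pow_order_dvd_mul_pow (q := q) (W := 1) (U.isUnit.map (b 0)) hK).2
    rw [hG, hUK, map_mul, map_pow, branch_nodeVar, if_pos rfl, PowerSeries.order_mul,
      PowerSeries.order_X_pow, ENat.toNat_add (ENat.natCast_ne_top j0), ENat.toNat_natCast,
      map_mul, map_pow, hkey]
    rw [map_mul, map_pow]
    exact (PowerSeries.order_finite_iff_ne_zero.mpr
      (mul_ne_zero (U.isUnit.map (b 0)).ne_zero (pow_ne_zero q hK))).ne
  rw [ho, ENat.toNat_natCast, mul_assoc] at hord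
  exact (Nat.dvd_add_left (dvd_mul_right q _)).mp ⟨_, hord.symm⟩

omit [IsDiscreteValuationRing O] in
include hO' in
/-- The mixed terms of the binomial expansion are divisible by the power of the uniformiser. -/
theorem exists_mixed_term {g y1 H H' : LRing q M O} (hH : H ∈ pZero hO) (hH' : H' ∈ pInf hO)
    {i : ℕ} (heq : H' ^ (q * i) * g = constL (T.π ^ (q * i)) * y1) {a b : ℕ}
    (hab : a + 1 + (b + 1) = q) : ∃ z : LRing q M O,
      H ^ (a + 1) * H' ^ ((i + 1) * (b + 1)) * g = constL T.π ^ (i * (b + 1)) * z ∧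
      z ∈ pInf hO ∧ z ∈ pZero hO := by
  refine exists_root_of_pow hO hO' T.irr
    (Z := y1 ^ (b + 1) * g ^ (a + 1) * H ^ ((a + 1) * q) * H' ^ ((b + 1) * q)) ?_ ?_
    (i * (b + 1)) ?_
  · exact Ideal.mul_mem_left _ _ (Ideal.pow_mem_of_mem _ hH' _
      (Nat.mul_pos b.succ_pos hqp.out.pos))
  · exact Ideal.mul_mem_right _ _ (Ideal.mul_mem_left _ _ (Ideal.pow_mem_of_mem _ hH _
      (Nat.mul_pos a.succ_pos hqp.out.pos)))
  · have e : (H' ^ (q * i) * g) ^ (b + 1) = (constL (T.π ^ (q * i)) * y1) ^ (b + 1) := by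
      rw [heq]
    rw [map_pow, mul_pow, mul_pow, ← pow_mul H' (q * i), ← pow_mul (constL T.π) (q * i)] at e
    calc (H ^ (a + 1) * H' ^ ((i + 1) * (b + 1)) * g) ^ q
        = H ^ ((a + 1) * q) * H' ^ ((b + 1) * q) * g ^ (a + 1) *
          (H' ^ (q * i * (b + 1)) * g ^ (b + 1)) := by
          rw [mul_pow, mul_pow, ← pow_mul, ← pow_mul,
            show g ^ q = g ^ (a + 1) * g ^ (b + 1) by rw [← pow_add, hab],
            show (i + 1) * (b + 1) * q = (b + 1) * q + q * i * (b + 1) by ring, pow_add]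
          ring
      _ = _ := by rw [e, show q * (i * (b + 1)) = q * i * (b + 1) by ring]; ring

include hO' hq2 T in
/-- **Normalisation on both components.** -/
theorem exists_normalisedM {g : LRing q M O} (hg : UnitInf P g) {u : ℍ → ℂ}
    (hu : (g : ℍ → ℂ) = u ^ q) (hdiv : Divisible q M O q (g : ℍ → ℂ))
    (hg0 : g ≠ 0) {𝔪 : Ideal (LRing q M O)} [h𝔪 : 𝔪.IsMaximal] (hinf : pInf hO ≤ 𝔪)
    (hzero : pZero hO ≤ 𝔪) {τ0 τ1 : ℍ} (hgp : GoodPoint haux O τ0)
    (ht : raiseL M (tPar haux hA hgp) ∈ 𝔪) (hg' : GoodPoint haux O τ1)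
    (ht' : (atkinEquiv hM hζ).symm (raiseL M (tPar haux hA hg')) ∈ 𝔪) :
    ∃ (y : LRing q M O) (s : ℍ → ℂ), s ∈ LSub q M ∧ (∀ δ ∈ lam q 2, act δ s = s) ∧
      UnitInf P y ∧ UnitZero P y ∧ (y : ℍ → ℂ) = (s * u) ^ q ∧
      y - hasseL haux hM hA hζ ^ q * g ∈ pInf hO := by
  classical
  have := hO'.complete
  set eA := atkinEquiv (O := O) hM hζ
  set H := hasseL haux hM hA hζ
  set H' := eA H
  obtain ⟨j0, y1, hy1, heq⟩ :=
    exists_normal_zero haux hA hO hM hζ hq2 hO' T.irr hg0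
  obtain ⟨i, rfl⟩ :=
    content_dvdM haux hA hO hO' hM hζ hq2 T hg hdiv hy1 heq hinf hzero hgp ht hg' ht'
  have hπ0 : ((T.π : O) : ℂ) ≠ 0 := fun h => T.irr.ne_zero (Subtype.ext h)
  have hH : H ∈ pZero hO := hasseL_mem_pZero haux hM hA hζ hO
  have hH1 : UnitInf P H := hasseL_unitInf haux hM hA hζ hO hq2
  have hH' : H' ∈ pInf hO := atkinL_mem_pInf hO hM hζ hH
  have hH'1 : UnitZero P H' := atkinL_unitZero hM hζ hH1
  set T1 : LRing q M O := H ^ q * g
  set T0 : LRing q M O := H' ^ q * y1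
  have hterm : ∀ a b : ℕ, a + 1 + (b + 1) = q → ∃ z : LRing q M O,
      H ^ (a + 1) * H' ^ ((i + 1) * (b + 1)) * g = constL T.π ^ (i * (b + 1)) * z ∧
      z ∈ pInf hO ∧ z ∈ pZero hO := fun a b hab => exists_mixed_term hO hO' T hH hH' heq hab
  choose! z hz using hterm
  set R : LRing q M O := ∑ k ∈ Finset.Ioo 0 q, (q.choose k : LRing q M O) * z (k - 1) (q - k - 1)
  set y : LRing q M O := T1 + T0 + R
  have hzk : ∀ k ∈ Finset.Ioo 0 q, k - 1 + 1 + (q - k - 1 + 1) = q := fun k hk => by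
    rw [Finset.mem_Ioo] at hk; omega
  have hRi : R ∈ pInf hO := Ideal.sum_mem _ fun k hk =>
    Ideal.mul_mem_left _ _ (hz _ _ (hzk k hk)).2.1
  have hRz : R ∈ pZero hO := Ideal.sum_mem _ fun k hk =>
    Ideal.mul_mem_left _ _ (hz _ _ (hzk k hk)).2.2
  set c : ℂ := (((T.π : O) : ℂ) ^ i)⁻¹
  set B : ℍ → ℂ := (fun _ => c) * (H' : ℍ → ℂ) ^ (i + 1)
  refine ⟨y, (H : ℍ → ℂ) + B, ?_, fun δ hδ => ?_, ?_, ?_, ?_, ?_⟩
  · exact add_mem H.2.2 (mul_mem ((LSub q M).algebraMap_mem c) (pow_mem H'.2.2 _))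
  · have a1 := act_hasseL haux hA hM hζ hq2 hδ
    have a2 : act δ (H' : ℍ → ℂ) = H' :=
      TwoP.act_atkin_of_inv hM hq2 haux.dvd (fun _ h => act_hasseL haux hA hM hζ hq2 h) hδ
    funext τ
    have b1 := congrFun a1 τ
    have b2 := congrFun a2 τ
    simp only [ES.act_apply] at b1 b2
    simp only [B, H, ES.act_apply, Pi.add_apply, Pi.mul_apply, Pi.pow_apply, b1, b2]
  · refine UnitAt.of_sub_mem hO (UnitAt.mul hO (UnitAt.pow hO hH1 q) hg) ?_
    rw [show H ^ q * g - y = -(T0 + R) by simp only [y, T1]; ring]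
    exact neg_mem (add_mem
      (Ideal.mul_mem_right _ _ (Ideal.pow_mem_of_mem _ hH' _ hqp.out.pos)) hRi)
  · refine UnitAt.of_sub_mem hO (UnitAt.mul hO (UnitAt.pow hO hH'1 q) hy1) ?_
    rw [show H' ^ q * y1 - y = -(T1 + R) by simp only [y, T0]; ring]
    exact neg_mem (add_mem
      (Ideal.mul_mem_right _ _ (Ideal.pow_mem_of_mem _ hH _ hqp.out.pos)) hRz)
  rotate_left
  · rw [show y - H ^ q * g = T0 + R by simp only [y, T1]; ring]
    exact add_mem (Ideal.mul_mem_right _ _ (Ideal.pow_mem_of_mem _ hH' _ hqp.out.pos)) hRi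
  funext τ
  let ev : LRing q M O →+* ℂ := (Pi.evalRingHom (fun _ : ℍ => ℂ) τ).comp (LRing q M O).subtype
  have hc : c * ((T.π : O) : ℂ) ^ i = 1 := inv_mul_cancel₀ (pow_ne_zero _ hπ0)
  have hgτ : ev g = u τ ^ q := congrFun hu τ
  have hC : ∀ r : O, ev (constL r) = (r : ℂ) := fun r => rfl
  have h0 : ev T0 = (c * ev H' ^ (i + 1)) ^ q * ev g := by
    have h := congrArg ev heq
    simp only [map_mul, map_pow, hC] at h
    simp only [T0, map_mul, map_pow]
    have hcq : c ^ q * ((T.π : O) : ℂ) ^ (q * i) = 1 := by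
      rw [mul_comm q i, pow_mul, ← mul_pow, hc, one_pow]
    calc ev H' ^ q * ev y1 = c ^ q * ev H' ^ q * (((T.π : O) : ℂ) ^ (q * i) * ev y1) := by
          linear_combination -(ev H' ^ q * ev y1) * hcq
      _ = c ^ q * ev H' ^ q * (ev H' ^ (q * i) * ev g) := by
          rw [← h]
      _ = _ := by rw [mul_pow, ← pow_mul, show (i + 1) * q = q + q * i by ring, pow_add]; ring
  have hm : ∀ k ∈ Finset.Ioo 0 q, ev ((q.choose k : LRing q M O) * z (k - 1) (q - k - 1)) =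
      ev H ^ k * (c * ev H' ^ (i + 1)) ^ (q - k) * (q.choose k : ℂ) * ev g := by
    intro k hk
    have h := congrArg ev (hz _ _ (hzk k hk)).1
    simp only [map_mul, map_pow, hC] at h
    have hk' := Finset.mem_Ioo.mp hk
    rw [show k - 1 + 1 = k by omega, show q - k - 1 + 1 = q - k by omega] at h
    rw [map_mul, map_natCast]
    have hcq : c ^ (q - k) * ((T.π : O) : ℂ) ^ (i * (q - k)) = 1 := by
      rw [pow_mul, ← mul_pow, hc, one_pow]
    calc (q.choose k : ℂ) * ev (z (k - 1) (q - k - 1))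
        = (q.choose k : ℂ) * c ^ (q - k) *
          (((T.π : O) : ℂ) ^ (i * (q - k)) * ev (z (k - 1) (q - k - 1))) := by
          linear_combination -((q.choose k : ℂ) * ev (z (k - 1) (q - k - 1))) * hcq
      _ = _ := by rw [← h, mul_pow, ← pow_mul]; ring
  show ev y = (((H : ℍ → ℂ) + B) * u) τ ^ q
  rw [show (((H : ℍ → ℂ) + B) * u) τ = (ev H + c * ev H' ^ (i + 1)) * u τ from rfl, mul_pow,
    ← hgτ, add_pow, Finset.sum_mul]
  simp only [y, R, map_add, map_sum]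
  have hsplit : Finset.range (q + 1) = insert q (insert 0 (Finset.Ioo 0 q)) := by
    ext k; simp; omega
  rw [hsplit, Finset.sum_insert (by simp [hqp.out.ne_zero]), Finset.sum_insert (by simp),
    Finset.sum_congr rfl hm, h0, Nat.choose_self, Nat.choose_zero_right, Nat.sub_self,
    Nat.sub_zero]
  simp only [T1, map_mul, map_pow, Nat.cast_one, pow_zero, one_mul, mul_one, add_assoc]

end FermatAgent.BAD.AtP
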