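import Fermat.Agent.BAD.AtP.Geo.Base
import Fermat.Agent.BAD.TwoP.NodeChart
import Fermat.Agent.BAD.TwoP.SmoothChart
import Fermat.Agent.BAD.TwoP.Normalise

/-!
# Orders and steps at the points of the component at `∞` at level `M`

The statements of the level four theory with orders at points in place of multiplicities of
polynomials in `t`, so that no invariance under `lam q 2` is used.
-/

set_option autoImplicit false

open UpperHalfPlane CongruenceSubgroup IsLocalRing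
open scoped MatrixGroups

noncomputable section

namespace FermatAgent.BAD.AtP

open FermatAgent.BAD.TwoP
open FermatAgent.ES (BRing act zetaC AuxLevel CPlace GoodRoot GoodPoint)

variable {q M : ℕ} [hqp : Fact q.Prime] [NeZero M] {O : Subring ℂ} (haux : AuxLevel M 2)
  (hA : GoodRoot M O (zetaC M)) {P : CPlace q} (hO : O ≤ P.ring) (hO' : P.IsCDVR O)
  (hM : M.Coprime q) (hζ : zetaC (q * M) ∈ O) (hq2 : q ≠ 2) (T : TauData q M P O)
  [IsDiscreteValuationRing O] {𝔪 : Ideal (LRing q M O)} {τ0 τ1 : ℍ}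

include hO' hM hζ hq2 in
/-- **A point of the component at `∞` alone.** -/
theorem smooth_ord [h𝔪 : 𝔪.IsMaximal] (hinf : pInf hO ≤ 𝔪) (hzero : ¬ pZero hO ≤ 𝔪)
    (hg : GoodPoint haux O τ0) (ht : raiseL M (tPar haux hA hg) ∈ 𝔪)
    (hfix : T.D.σO ⟨_, hg.val.mem⟩ = ⟨_, hg.val.mem⟩) {y : LRing q M O}
    (hdiv : Divisible q M O q (y : ℍ → ℂ)) {i : ℕ} (hi : OrdAt haux hA hO 𝔪 hg y i) :
    q ∣ i ∧ ∀ (j : ℕ) (z : LRing q M O) (i' : ℕ), j ≤ q →
      T.D.conjL haux y - y = constL T.π ^ j * z → OrdAt haux hA hO 𝔪 hg z i' → i ≤ i' := by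
  have := noetherian_LRing (q := q) haux hA hζ
  have := hO'.complete
  obtain ⟨Φ, hΦC, hΦt, hΦτ, hΦu, hΦinf⟩ :=
    exists_smoothChartU haux hA hO hO' hM hζ hq2 T hinf hzero hg ht hfix
  set β := (psRes (O := O)).comp Φ
  have hβu : ∀ f ∉ 𝔪, IsUnit (β f) := fun f hf => (hΦu f hf).map psRes
  have hβt : β (raiseL M (tPar haux hA hg)) = PowerSeries.X ^ 1 * 1 := by
    rw [RingHom.comp_apply, hΦt, PowerSeries.map_X, pow_one, mul_one]
  obtain ⟨hy0, hyo⟩ := hi.order_eq haux hA hO hΦinf hβu isUnit_one hβt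
  rw [one_mul] at hyo
  obtain ⟨U, H, hUH⟩ := exists_series_factor haux hA hdiv Φ hΦC hy0
  have hH : psRes H ≠ 0 := fun h => hy0 (by
    show psRes (Φ y) = 0
    rw [hUH, map_mul, map_pow, h, zero_pow hqp.out.ne_zero, mul_zero])
  have hby : β y = psRes ↑U * psRes H ^ q := by
    show psRes (Φ y) = _
    rw [hUH, map_mul, map_pow]
  obtain ⟨hd1, hd2⟩ := X_pow_order_dvd_mul_pow (q := q) (W := 1) (U.isUnit.map psRes) hH
  rw [← hby, hyo, ENat.toNat_natCast] at hd2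
  refine ⟨⟨_, hd2⟩, fun j z i' hj hz hi' => ?_⟩
  obtain ⟨W, hW⟩ := series_step T.irr T.sq (T.q_dvd hq2) hUH hH hj (z := Φ z) (by
    rw [← hΦτ, ← map_sub, hz, map_mul, map_pow, hΦC])
  obtain ⟨hz0, hzo⟩ := hi'.order_eq haux hA hO hΦinf hβu isUnit_one hβt
  rw [one_mul] at hzo
  have hdvd : PowerSeries.X ^ i ∣ β z := by
    have := (X_pow_order_dvd_mul_pow (q := q) (W := W) (U.isUnit.map psRes) hH).1
    rw [← hby, hyo, ENat.toNat_natCast] at this
    rwa [show β z = psRes (Φ z) from rfl, hW]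
  by_contra hlt
  exact (PowerSeries.order_eq_nat.mp hzo).1
    (PowerSeries.X_pow_dvd_iff.mp hdvd i' (not_le.mp hlt))

include hO' hM hζ hq2 in
/-- `hasseFun` does not vanish at the points of one component. -/
theorem smooth_hasse_ord [h𝔪 : 𝔪.IsMaximal] (hinf : pInf hO ≤ 𝔪) (hzero : ¬ pZero hO ≤ 𝔪)
    (hg : GoodPoint haux O τ0) (ht : raiseL M (tPar haux hA hg) ∈ 𝔪)
    (hfix : T.D.σO ⟨_, hg.val.mem⟩ = ⟨_, hg.val.mem⟩) {i : ℕ}
    (hi : OrdAt haux hA hO 𝔪 hg (hasseL haux hM hA hζ) i) : i = 0 := by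
  have := noetherian_LRing (q := q) haux hA hζ
  have := hO'.complete
  obtain ⟨Φ, hΦC, hΦt, hΦτ, hΦu, hΦinf⟩ :=
    exists_smoothChartU haux hA hO hO' hM hζ hq2 T hinf hzero hg ht hfix
  set β := (psRes (O := O)).comp Φ
  have hβu : ∀ f ∉ 𝔪, IsUnit (β f) := fun f hf => (hΦu f hf).map psRes
  have hβt : β (raiseL M (tPar haux hA hg)) = PowerSeries.X ^ 1 * 1 := by
    rw [RingHom.comp_apply, hΦt, PowerSeries.map_X, pow_one, mul_one]
  set h := hasseL haux hM hA hζ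
  obtain ⟨hy0, hyo⟩ := hi.order_eq haux hA hO hΦinf hβu isUnit_one hβt
  rw [one_mul] at hyo
  have hC : PowerSeries.C T.π ≠ 0 := fun h0 =>
    T.irr.ne_zero (PowerSeries.C_injective (by rw [h0, map_zero]))
  have hprime : Prime (PowerSeries.C T.π) := by
    refine ⟨hC, fun hu => T.irr.not_isUnit (by
      have := hu.map PowerSeries.constantCoeff
      rwa [PowerSeries.constantCoeff_C] at this), fun x z hxz => ?_⟩
    obtain ⟨w, hw⟩ := hxz
    have h1 := congrArg psRes hw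
    rw [map_mul, map_mul, psRes_C_unif T.irr, zero_mul] at h1
    exact (mul_eq_zero.mp h1).imp (dvd_of_psRes_eq_zero T.irr) (dvd_of_psRes_eq_zero T.irr)
  set n := q * (q - 1) * 2
  have h1 := congrArg Φ (hasseL_mul_atkin haux hA hM hζ hq2)
  rw [map_mul, hΦC, T.q_eq, mul_pow, ← pow_mul, map_mul, map_pow PowerSeries.C T.π] at h1
  obtain ⟨r, hr⟩ : PowerSeries.C T.π ^ n ∣ Φ (atkinEquiv hM hζ h) :=
    hprime.pow_dvd_of_dvd_mul_left n (a := Φ h) (fun ⟨w, hw⟩ => hy0 (by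
      show psRes (Φ h) = 0
      rw [hw, map_mul, psRes_C_unif T.irr, zero_mul]))
      ⟨PowerSeries.C ((T.a1 : O) ^ 2), by rw [h1]; ring⟩
  have hunit : IsUnit (Φ h) := by
    refine isUnit_of_mul_isUnit_left (y := r) ?_
    rw [hr] at h1
    have h2 : Φ h * r = PowerSeries.C ((T.a1 : O) ^ 2) := by
      refine mul_left_cancel₀ (pow_ne_zero n hC) ?_
      linear_combination h1
    rw [h2]
    exact (T.a1.isUnit.pow 2).map _
  rw [show β h = psRes (Φ h) from rfl, PowerSeries.order_zero_of_unit (hunit.map psRes)] at hyo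
  exact_mod_cast hyo.symm

/-! ### Crossing points -/

include hO' hM hζ hq2 T in
/-- Functions with unit coefficients on both components do not vanish on the branches. -/
theorem branch_ne_zero [h𝔪 : 𝔪.IsMaximal] (hinf : pInf hO ≤ 𝔪) (hzero : pZero hO ≤ 𝔪)
    (hg : GoodPoint haux O τ0) (ht : raiseL M (tPar haux hA hg) ∈ 𝔪)
    (hg' : GoodPoint haux O τ1)
    (ht' : (atkinEquiv hM hζ).symm (raiseL M (tPar haux hA hg')) ∈ 𝔪) {f : LRing q M O}
    {Φ : LRing q M O →+* Node O T.π}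
    (hΦ0 : ∀ f ∈ pInf hO, branch (unif_mem T.irr) 0 (Φ f) = 0)
    (hΦ1 : ∀ f ∈ pInf hO, branch (unif_mem T.irr) 1 (Φ ((atkinEquiv hM hζ).symm f)) = 0)
    (hΦu : ∀ f ∉ 𝔪, IsUnit (Φ f))
    {w0 w1 : PowerSeries (ResidueField O)} (hw0 : IsUnit w0) (hw1 : IsUnit w1) {d : ℕ}
    (hwt0 : branch (unif_mem T.irr) 0 (Φ (raiseL M (tPar haux hA hg))) = PowerSeries.X ^ d * w0)
    (hwt1 : branch (unif_mem T.irr) 1
      (Φ ((atkinEquiv hM hζ).symm (raiseL M (tPar haux hA hg')))) = PowerSeries.X ^ d * w1) :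
    (UnitInf P f → branch (unif_mem T.irr) 0 (Φ f) ≠ 0) ∧
      (UnitInf P (atkinEquiv hM hζ f) → branch (unif_mem T.irr) 1 (Φ f) ≠ 0) := by
  set eA := atkinEquiv (O := O) hM hζ
  refine ⟨fun hf => ?_, fun hf => ?_⟩
  · obtain ⟨i, hi⟩ := exists_ordAt haux hA hO hO' hM hζ hq2 hg hinf ht hf
    exact (hi.order_eq haux hA hO (β := (branch (unif_mem T.irr) 0).comp Φ) hΦ0
      (fun f (hf : f ∉ 𝔪) => (hΦu f hf).map (branch (unif_mem T.irr) 0)) hw0 hwt0).1
  · set 𝔫 := 𝔪.comap eA.symm.toRingHom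
    have : 𝔫.IsMaximal := Ideal.comap_isMaximal_of_surjective _ eA.symm.surjective
    have hinf' : pInf hO ≤ 𝔫 := fun f hf => hzero (atkinSymm_mem_pZero hO hM hζ hf)
    obtain ⟨i, hi⟩ := exists_ordAt haux hA hO hO' hM hζ hq2 (𝔪 := 𝔫) hg' hinf' ht' hf
    have h := (hi.order_eq haux hA hO
      (β := ((branch (unif_mem T.irr) 1).comp Φ).comp eA.symm.toRingHom) hΦ1
      (fun f (hf : f ∉ 𝔫) => (hΦu (eA.symm f) hf).map (branch (unif_mem T.irr) 1)) hw1 hwt1).1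
    simpa using h

include hO' hM hζ hq2 in
/-- **A crossing point.** -/
theorem node_ord [h𝔪 : 𝔪.IsMaximal] (hinf : pInf hO ≤ 𝔪) (hzero : pZero hO ≤ 𝔪)
    (hg : GoodPoint haux O τ0) (ht : raiseL M (tPar haux hA hg) ∈ 𝔪)
    (hg' : GoodPoint haux O τ1)
    (ht' : (atkinEquiv hM hζ).symm (raiseL M (tPar haux hA hg')) ∈ 𝔪) {y : LRing q M O}
    (hdiv : Divisible q M O q (y : ℍ → ℂ)) {i i1 : ℕ} (hi : OrdAt haux hA hO 𝔪 hg y i)
    (hi1 : OrdAt haux hA hO (𝔪.comap (atkinEquiv hM hζ).symm.toRingHom) hg'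
      (atkinEquiv hM hζ y) i1)
    {j : ℕ} (hj : j ≤ q) {z : LRing q M O}
    (hz : T.D.conjL haux y - y = constL T.π ^ j * z) :
    (∀ i', OrdAt haux hA hO 𝔪 hg z i' → i ≤ i') ∧
    ∀ c c' : O, z - constL c * y ∈ pInf hO →
      atkinEquiv hM hζ z - constL c' * atkinEquiv hM hζ y ∈ pInf hO →
      (j < q → residue O c' = residue O c) ∧
      (j = q → residue O c' = residue O c + (-residue O T.η * (i1 : ResidueField O)) ^ q) := by
  have := noetherian_LRing (q := q) haux hA hζ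
  have := hO'.complete
  have := node_isDomain T.irr
  obtain ⟨Φ, hΦC, hΦτ, hΦ0, hΦ1, ⟨w0, hw0, hwt0⟩, hΦu, w1, hw1, hwt1⟩ :=
    exists_nodeChartU haux hA hO hO' hM hζ hq2 T hinf hzero hg ht hg' ht'
  set b := branch (unif_mem T.irr)
  set eA := atkinEquiv (O := O) hM hζ
  have hE : 0 < q * (q - 1) :=
    Nat.mul_pos hqp.out.pos (Nat.sub_pos_of_lt hqp.out.one_lt)
  set β0 := (b 0).comp Φ
  set β1 := ((b 1).comp Φ).comp eA.symm.toRingHom
  have hu0' : ∀ f ∉ 𝔪, IsUnit (β0 f) := fun f hf => (hΦu f hf).map (b 0)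
  have hbC : ∀ i r, b i (Φ (constL r)) = PowerSeries.C (residue O r) := fun i r => by
    rw [hΦC, branch_nodeC]
  obtain ⟨hy00, hy0o⟩ := hi.order_eq haux hA hO (β := β0) hΦ0 hu0' hw0 hwt0
  obtain ⟨hy10, hy1o⟩ := hi1.order_eq haux hA hO (β := β1) hΦ1
    (fun f hf => (hΦu (eA.symm f) hf).map (b 1)) hw1 hwt1
  have hβ1y : β1 (eA y) = b 1 (Φ y) := by
    show b 1 (Φ (eA.symm (eA y))) = _
    rw [eA.symm_apply_apply]
  rw [hβ1y] at hy10 hy1o
  have hybr : ∀ i, b i (Φ y) ≠ 0 := Fin.forall_fin_two.mpr ⟨hy00, hy10⟩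
  obtain ⟨U, H, hUH⟩ := exists_node_factor haux hA T.irr hdiv Φ hΦC hybr
  have hH : ∀ i, b i H ≠ 0 := fun i h => hybr i (by
    rw [hUH, map_mul, map_pow, h, zero_pow hqp.out.ne_zero, mul_zero])
  have hb : ∀ i, b i (Φ y) = b i ↑U * b i H ^ q := fun i => by rw [hUH, map_mul, map_pow]
  obtain ⟨W, hW0, hW1⟩ := node_step T.irr T.sq (T.q_dvd hq2) T.map_π hUH hH hj (z := Φ z) (by
    rw [← hΦτ, ← map_sub, hz, map_mul, map_pow, hΦC])
  refine ⟨fun i' hi' => ?_, fun c c' hc hc' => ?_⟩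
  · obtain ⟨-, hzo⟩ := hi'.order_eq haux hA hO (β := β0) hΦ0 hu0' hw0 hwt0
    have hdvd := (X_pow_order_dvd_mul_pow (q := q) (W := b 0 W) (U.isUnit.map (b 0)) (hH 0)).1
    rw [← hW0, ← hb, show b 0 (Φ y) = β0 y from rfl, hy0o, ENat.toNat_natCast] at hdvd
    by_contra hlt
    exact (PowerSeries.order_eq_nat.mp hzo).1 (PowerSeries.X_pow_dvd_iff.mp hdvd _
      (Nat.mul_lt_mul_of_pos_left (not_le.mp hlt) hE))
  set k := (b 1 H).order.toNat
  have hk : k = (q - 1) * i1 := by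
    have h1 := (X_pow_order_dvd_mul_pow (q := q) (W := 1) (U.isUnit.map (b 1)) (hH 1)).2
    rw [← hb, hy1o, ENat.toNat_natCast, mul_assoc] at h1
    exact (Nat.eq_of_mul_eq_mul_left hqp.out.pos h1).symm
  have hu0 : PowerSeries.constantCoeff (b 1 (↑U : Node O T.π)) ≠ 0 :=
    (PowerSeries.isUnit_iff_constantCoeff.mp (U.isUnit.map (b 1))).ne_zero
  have hcU := constantCoeff_branch (unif_mem T.irr) 1 (↑U : Node O T.π)
  have hcW := constantCoeff_branch (unif_mem T.irr) 1 W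
  have h0 : b 0 W = PowerSeries.C (residue O c) * b 0 ↑U := by
    refine mul_right_cancel₀ (pow_ne_zero q (hH 0)) ?_
    have h1 := hΦ0 _ hc
    rw [map_sub, map_sub, sub_eq_zero, map_mul, map_mul, hbC, hW0, hb] at h1
    rw [h1, mul_assoc]
  have h1 : b 1 (Φ z) = PowerSeries.C (residue O c') * (b 1 ↑U * b 1 H ^ q) := by
    have h1 := hΦ1 _ hc'
    rw [map_sub eA.symm, map_mul eA.symm, eA.symm_apply_apply, eA.symm_apply_apply, map_sub,
      map_sub, sub_eq_zero] at h1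
    rw [h1, map_mul, map_mul, ← hb,
      show eA.symm (constL c') = constL c' from eA.injective (by
        rw [eA.apply_symm_apply, atkinEquiv_constL hM hζ]), hbC]
  have hXk : PowerSeries.X ^ k ∣ b 1 H := PowerSeries.X_pow_order_dvd
  have hHk : PowerSeries.coeff k (b 1 H) ≠ 0 :=
    PowerSeries.coeff_order (hH 1)
  have h2 := congrArg (PowerSeries.coeff (k * q)) (hW1.symm.trans h1)
  rw [← mul_assoc, map_add, coeff_mul_pow_of_dvd hXk, coeff_mul_pow_of_dvd hXk, map_mul,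
    PowerSeries.constantCoeff_C, hcW, h0, map_mul, PowerSeries.constantCoeff_C, ← hcU] at h2
  refine ⟨fun hjq => ?_, fun hjq => ?_⟩
  · rw [if_neg hjq.ne, map_zero, add_zero] at h2
    exact (mul_right_cancel₀ hu0 (mul_right_cancel₀ (pow_ne_zero q hHk) h2)).symm
  · rw [if_pos hjq, coeff_mul_pow_of_dvd
      (Dvd.dvd.mul_left (X_pow_dvd_thetaPS hXk) _), PowerSeries.coeff_C_mul, coeff_thetaPS] at h2
    have hkcast : (k : ResidueField O) = -(i1 : ResidueField O) := by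
      rw [hk, Nat.cast_mul, Nat.cast_sub hqp.out.one_le, Nat.cast_one,
        show (q : ResidueField O) = 0 by rw [← map_natCast (residue O)]; exact residue_natCast_q T]
      ring
    rw [hkcast] at h2
    refine mul_right_cancel₀ hu0 (mul_right_cancel₀ (pow_ne_zero q hHk) ?_)
    linear_combination -h2

include hO' hM hζ hq2 T in
/-- `hasseFun` has order two at the crossing points. -/
theorem node_hasse_ord [h𝔪 : 𝔪.IsMaximal] (hinf : pInf hO ≤ 𝔪) (hzero : pZero hO ≤ 𝔪)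
    (hg : GoodPoint haux O τ0) (ht : raiseL M (tPar haux hA hg) ∈ 𝔪)
    (hg' : GoodPoint haux O τ1)
    (ht' : (atkinEquiv hM hζ).symm (raiseL M (tPar haux hA hg')) ∈ 𝔪) {i : ℕ}
    (hi : OrdAt haux hA hO 𝔪 hg (hasseL haux hM hA hζ) i) : i = 2 := by
  have := noetherian_LRing (q := q) haux hA hζ
  have := hO'.complete
  have := node_isDomain T.irr
  obtain ⟨Φ, hΦC, hΦτ, hΦ0, hΦ1, ⟨w0, hw0, hwt0⟩, hΦu, w1, hw1, hwt1⟩ :=
    exists_nodeChartU haux hA hO hO' hM hζ hq2 T hinf hzero hg ht hg' ht'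
  set b := branch (unif_mem T.irr)
  have hE : 0 < q * (q - 1) :=
    Nat.mul_pos hqp.out.pos (Nat.sub_pos_of_lt hqp.out.one_lt)
  set E := q * (q - 1)
  set h := hasseL haux hM hA hζ
  set eA := atkinEquiv (O := O) hM hζ
  obtain ⟨hh0, hh0o⟩ := hi.order_eq haux hA hO (β := (b 0).comp Φ) hΦ0
    (fun f (hf : f ∉ 𝔪) => (hΦu f hf).map (b 0)) hw0 hwt0
  have hh1' : b 1 (Φ (eA h)) ≠ 0 := (branch_ne_zero haux hA hO hO' hM hζ hq2 T hinf hzero hg ht
    hg' ht' hΦ0 hΦ1 hΦu hw0 hw1 hwt0 hwt1).2 (by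
      rw [atkinEquiv_sq haux hM hζ hq2 fun δ hδ => act_hasseL haux hA hM hζ hq2 hδ]
      exact hasseL_unitInf haux hM hA hζ hO hq2)
  set x := nodeVar T.π 0
  set x' := nodeVar T.π 1
  set u : Node O T.π := nodeC T.π ((T.a1 : O) ^ 2)
  have hu : IsUnit u := ((T.a1.isUnit.pow 2).map _)
  obtain ⟨R, R', hRu, -, hR, -⟩ := node_split T.irr (A := Φ h) (B := Φ (eA h)) (u := u) hu
    (a := 2 * E) (b := 2 * E) (by
      rw [← map_mul, hasseL_mul_atkin haux hA hM hζ hq2, hΦC, T.q_eq, mul_pow, ← pow_mul,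
        map_mul, map_pow (nodeC T.π) T.π, ← nodeVar_mul, mul_pow, mul_comm E 2]) hh0 hh1'
  have hord : (b 0 (Φ h)).order = ((2 * E : ℕ) : ℕ∞) := by
    rw [hR, map_mul, map_pow, branch_nodeVar, if_pos rfl, PowerSeries.order_mul,
      PowerSeries.order_X_pow, PowerSeries.order_zero_of_unit (hRu.map (b 0)), add_zero]
  rw [show ((b 0).comp Φ h) = b 0 (Φ h) from rfl, hord] at hh0o
  have h2 : 2 * E = E * i := by exact_mod_cast hh0o
  exact (Nat.eq_of_mul_eq_mul_left hE ((mul_comm E 2).trans h2)).symm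

end FermatAgent.BAD.AtP
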