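import Fermat.Agent.BAD.AtP.Geo.Point

/-!
# Translates of functions of level `Γ₀(q) ∩ Γ(M)`

The translates by `Γ₀(q)` preserve the ring of level `q M`; they permute the series at the cusps
over `∞`, keep unit coefficients and divisibility, and commute with conjugation of the
coefficients.
-/

set_option autoImplicit false

open UpperHalfPlane CongruenceSubgroup IsLocalRing
open scoped MatrixGroups

noncomputable section

namespace FermatAgent.BAD.AtP

open FermatAgent.BAD.TwoP
open FermatAgent.ES (BRing act zetaC AuxLevel CPlace GoodRoot GoodPoint)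

variable {q M : ℕ} [hqp : Fact q.Prime] [NeZero M] {O : Subring ℂ}

theorem act_mem_LRingM {δ : SL(2, ℤ)} (hδ : δ ∈ Gamma0 q) {f : ℍ → ℂ} (hf : f ∈ LRing q M O) :
    act δ f ∈ LRing q M O := by
  obtain ⟨⟨hB, hinv⟩, hser⟩ := mem_LRing.mp hf
  refine mem_LRing.mpr ⟨⟨ES.act_mem_BSub hB δ, fun γ hγ => ?_⟩, fun γ => ?_⟩
  · rw [← ES.act_mul, show δ * γ = (δ * γ * δ⁻¹) * δ by group, ES.act_mul,
      hinv _ (lam_normalised hδ hγ)]
  · rw [ES.lexp_act]
    exact hser _

/-- The translate by an element of `Γ₀(q)`. -/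
def actL {δ : SL(2, ℤ)} (hδ : δ ∈ Gamma0 q) : LRing q M O →+* LRing q M O :=
  ((ES.actHom δ).comp (LRing q M O).subtype).codRestrict _ fun f => act_mem_LRingM hδ f.2

/-- The translate as a function. -/
theorem coe_actL {δ : SL(2, ℤ)} (hδ : δ ∈ Gamma0 q) (f : LRing q M O) :
    (actL hδ f : ℍ → ℂ) = act δ (f : ℍ → ℂ) := rfl

/-- Constants are fixed by translation. -/
theorem actL_constL {δ : SL(2, ℤ)} (hδ : δ ∈ Gamma0 q) (r : O) :
    actL hδ (constL r : LRing q M O) = constL r := Subtype.ext rfl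

/-- The series of a translate at a cusp are series of the function. -/
theorem serAt_actL {δ : SL(2, ℤ)} (hδ : δ ∈ Gamma0 q) (γ : SL(2, ℤ)) (f : LRing q M O) :
    serAt M O q γ (actL hδ f) = serAt M O q (δ * γ) f := by
  rw [serAt_apply, serAt_apply, coe_actL, ES.lexp_act]

/-- The series of a translate at the cusps over `∞`. -/
theorem infSer_actL {δ : SL(2, ℤ)} (hδ : δ ∈ Gamma0 q) {γ : SL(2, ℤ)} (hγ : γ ∈ Gamma0 q)
    (f : LRing q M O) :
    infSer γ hγ (actL hδ f) = infSer (δ * γ) (mul_mem hδ hγ) f := by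
  refine expandL_injective q ?_
  rw [expandL_infSer, expandL_infSer]
  refine serO_ext ?_
  rw [serAt_actL, liftSer_serO]

variable {P : CPlace q}

/-- Translation keeps unit coefficients on the component at `∞`. -/
theorem actL_unitInf {δ : SL(2, ℤ)} (hδ : δ ∈ Gamma0 q) {f : LRing q M O} (hf : UnitInf P f) :
    UnitInf P (actL hδ f) := fun γ hγ => by
  rw [serAt_actL]
  exact hf _ (mul_mem hδ hγ)

/-- Translation keeps divisibility of the zeros. -/
theorem divisible_actL {δ : SL(2, ℤ)} (hδ : δ ∈ Gamma0 q) {n : ℕ} {f : LRing q M O}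
    (hf : Divisible q M O n (f : ℍ → ℂ)) : Divisible q M O n (actL hδ f : ℍ → ℂ) := fun τ hτ => by
  obtain ⟨i, E, D, X, hE, hX, heq⟩ := hf (δ • τ) hτ
  refine ⟨i, actL hδ E, actL hδ D, actL hδ X, hE, hX, funext fun σ => ?_⟩
  have h := congrFun heq (δ • σ)
  simpa [coe_actL, ES.act_apply] using h

variable (haux : AuxLevel M 2) (hA : GoodRoot M O (zetaC M)) (hO : O ≤ P.ring) (hM : M.Coprime q)
  (hζ : zetaC (q * M) ∈ O) (hq2 : q ≠ 2) (T : TauData q M P O)

/-- Translation commutes with conjugation of the coefficients. -/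
theorem conjL_actL {δ : SL(2, ℤ)} (hδ : δ ∈ Gamma0 q) (f : LRing q M O) :
    T.D.conjL haux (actL hδ f) = actL hδ (T.D.conjL haux f) := by
  refine serAt_injective 1 ?_
  rw [T.D.serAt_conjL haux _ (T.galRel_self 1), serAt_actL, serAt_actL,
    T.D.serAt_conjL haux f (T.galRel_self (δ * 1))]

include haux hA hM hζ hq2 in
/-- A function is small on the component at `∞` or has a unit coefficient at all its cusps. -/
theorem mem_pInf_or_unitInf (f : LRing q M O) : f ∈ pInf hO ∨ UnitInf P f := by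
  by_cases h : f ∈ pInf hO
  · exact Or.inl h
  · rw [mem_pInf] at h
    push Not at h
    obtain ⟨γ, hγ, hγn⟩ := h
    refine Or.inr (unitInf_of_unitCoeff haux hA hO hM hζ hq2 hγ ?_)
    by_contra hno
    exact hγn (P.serLT_of_not_unitCoeff (fun n => hO (serIn_serAt γ f n)) hno)

end FermatAgent.BAD.AtP
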